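import Fermat.Agent.S13.TwoAdic.XDefs
import Fermat.Agent.S05.Core.Newton

/-!
# S13 / TwoAdic / XCore (owner helper16): shared elementary facts for the port of S05's core

No hypothesis `v 2 = 1` is available: only `v 2 ≤ 1`, `v 4 ≤ 1` (`val_two_le`, `val_four_le`).
Setting of the field-level rule (`URHyp2`): `v b₂ = 1`, `a₄ ≠ 0`, `ε := v a₄ < 1`, `x₁ ≠ x₂`,
`r₁ + r₂ = S := (2 (x₁x₂ + a₄)(x₁ + x₂) + b₂ x₁x₂) / (x₁ - x₂)²`,
`r₁ r₂ = Π := (x₁x₂ - a₄)² / (x₁ - x₂)²`.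
The numerator of `S` is `T1 + T2`, `T1 = 2 (x₁x₂ + a₄)(x₁ + x₂)`, `T2 = b₂ x₁x₂`;
`v T2 = v x₁ * v x₂` exactly (`val_T2`), and `v T1 ≤ v (x₁x₂ + a₄) * v (x₁ + x₂)` (`val_T1_le`).
-/

set_option autoImplicit false

namespace Fermat.Agent.S13.TwoAdic.XCore

open Fermat.Agent.S05 (fold qt clip URConcl)

variable {K : Type*} [Field K] {Γ₀ : Type*} [LinearOrderedCommGroupWithZero Γ₀]

theorem val_two_le (v : Valuation K Γ₀) : v (2 : K) ≤ 1 := by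
  have h : (2 : K) = 1 + 1 := by norm_num
  rw [h]
  exact Valuation.map_add_le v (le_of_eq v.map_one) (le_of_eq v.map_one)

theorem val_four_le (v : Valuation K Γ₀) : v (4 : K) ≤ 1 := by
  have h : (4 : K) = 2 * 2 := by norm_num
  rw [h, map_mul]
  exact mul_le_one' (val_two_le v) (val_two_le v)

theorem val_two_mul_le (v : Valuation K Γ₀) (t : K) : v (2 * t) ≤ v t := by
  rw [map_mul]
  exact mul_le_of_le_one_left' (val_two_le v)

theorem val_four_mul_le (v : Valuation K Γ₀) (t : K) : v (4 * t) ≤ v t := by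
  rw [map_mul]
  exact mul_le_of_le_one_left' (val_four_le v)

variable {v : Valuation K Γ₀} {b₂ a₄ x₁ x₂ r₁ r₂ : K}

theorem eps_pos (H : URHyp2 v b₂ a₄ x₁ x₂ r₁ r₂) : 0 < v a₄ := v.pos_iff.mpr H.ha₄0

/-- The `b₂`-term of the numerator of `S` has valuation exactly `v x₁ * v x₂`. -/
theorem val_T2 (H : URHyp2 v b₂ a₄ x₁ x₂ r₁ r₂) : v (b₂ * x₁ * x₂) = v x₁ * v x₂ := by
  rw [map_mul, map_mul, H.hb₂, one_mul]

/-- The `2`-term of the numerator of `S` is bounded by the product of its two factors. -/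
theorem val_T1_le (v : Valuation K Γ₀) (a₄ x₁ x₂ : K) :
    v (2 * (x₁ * x₂ + a₄) * (x₁ + x₂)) ≤ v (x₁ * x₂ + a₄) * v (x₁ + x₂) := by
  rw [map_mul, map_mul]
  exact mul_le_mul' (mul_le_of_le_one_left' (val_two_le v)) le_rfl

/-- Symmetry of the hypotheses in `x₁ ↔ x₂`. -/
theorem urHyp2_swap (H : URHyp2 v b₂ a₄ x₁ x₂ r₁ r₂) : URHyp2 v b₂ a₄ x₂ x₁ r₁ r₂ where
  hb₂ := H.hb₂
  ha₄0 := H.ha₄0
  ha₄ := H.ha₄
  hne := H.hne.symm
  hsum := by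
    have e1 : (x₂ - x₁) ^ 2 = (x₁ - x₂) ^ 2 := by ring
    have e2 : 2 * (x₂ * x₁ + a₄) * (x₂ + x₁) + b₂ * x₂ * x₁
        = 2 * (x₁ * x₂ + a₄) * (x₁ + x₂) + b₂ * x₁ * x₂ := by ring
    rw [e1, e2]
    exact H.hsum
  hprod := by
    have e1 : (x₂ - x₁) ^ 2 = (x₁ - x₂) ^ 2 := by ring
    rw [e1, mul_comm x₂ x₁]
    exact H.hprod

end Fermat.Agent.S13.TwoAdic.XCore
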