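import Fermat.Agent.S13.TwoAdic.XCore.Basic

/-!
# S13 / TwoAdic / XCore: field-level duplication rule without `v 2 = 1`
(one worker; statements frozen by helper16)

PORT of `Fermat/Agent/S05/Core/Dbl.lean` (READ-ONLY template; its `Gamma` section — the lemmas
`case1 … case5`, `clip_*`, `fold_*` on the value group — can be copied verbatim).
`r = (x² - a₄)² / D`, `D = 4x³ + b₂x² + 4a₄x = x (4x² + b₂x + 4a₄) ≠ 0` (so `x ≠ 0`), `v b₂ = 1`,
`0 < ε = v a₄ < 1`, NO hypothesis on `v 2` (only `v 4 ≤ 1`: `val_four_le`, `val_four_mul_le`).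
Additive notation (`w = -log v`, `ω = w(2) ≥ 0`, `N = w(a₄) > 0`, `i = w(x)`, `s = clip i`); claim:
`clip w(r) = 2s` if `2s ≤ N`, `2N - 2s` otherwise.  The three terms of `D` have
`w(4x³) = 2ω + 3i`, `w(b₂x²) = 2i`, `w(4a₄x) = 2ω + N + i`.
* `i < 0`: `w(num) = 4i`, `w(D) ≥ 3i`, so `w(r) ≤ i < 0` (BOUND only), clipped `0`.
* `i = 0`: `w(num) = 0`, `w(D) ≥ 0`, so `w(r) ≤ 0`, clipped `0`.
* `0 < i < N`: `w(D) = 2i` exactly (the `b₂`-term strictly dominates), `w(x² - a₄) = min(2i, N)` if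
  `2i ≠ N` and `≥ N` if `2i = N`; so `w(r) = 2 min(2i, N) - 2i` (`≥ N` if `2i = N`).
* `i ≥ N`: `w(num) = 2N` (`w(x²) = 2i > N`), `w(D) ≥ min(2i, N + i) = N + i`, so `w(r) ≤ N - i ≤ 0`,
  clipped `0`; and `s = N`, `fold(2N) = 0`.
-/

set_option autoImplicit false

namespace Fermat.Agent.S13.TwoAdic.XCore

open Fermat.Agent.S05 (fold qt clip URConcl)

variable {K : Type*} [Field K] {Γ₀ : Type*} [LinearOrderedCommGroupWithZero Γ₀]

/-! ### Lemmas on the value group (port of the `Gamma` section of the template) -/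

theorem dbl_clip_of_one_le {ε u : Γ₀} (hε : ε ≤ 1) (h : 1 ≤ u) : clip ε u = 1 := by
  unfold clip
  rw [min_eq_left h, max_eq_right hε]

theorem dbl_clip_of_le_of_le {ε u : Γ₀} (h1 : ε ≤ u) (h2 : u ≤ 1) : clip ε u = u := by
  unfold clip
  rw [min_eq_right h2, max_eq_right h1]

theorem dbl_clip_of_le {ε u : Γ₀} (hε : ε ≤ 1) (h : u ≤ ε) : clip ε u = ε := by
  unfold clip
  rw [min_eq_right (h.trans hε), max_eq_left h]

theorem dbl_fold_of_le {ε u : Γ₀} (h : ε ≤ u) : fold ε u = u := by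
  unfold fold
  rw [if_pos h]

theorem dbl_fold_of_lt {ε u : Γ₀} (h : u < ε) : fold ε u = ε ^ 2 / u := by
  unfold fold
  rw [if_neg (not_le.mpr h)]

/-- `ε * ε < ε`. -/
theorem dbl_mul_self_lt {ε : Γ₀} (hε0 : 0 < ε) (hε : ε < 1) : ε * ε < ε := by
  calc ε * ε < ε * 1 := by
        rw [mul_lt_mul_iff_right₀ hε0]
        exact hε
    _ = ε := mul_one ε

theorem dbl_fold_mul_self {ε : Γ₀} (hε0 : 0 < ε) (hε : ε < 1) : fold ε (ε * ε) = 1 := by
  rw [dbl_fold_of_lt (dbl_mul_self_lt hε0 hε), pow_two, div_self (mul_pos hε0 hε0).ne']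

/-- `1 ≤ x`: the numerator has valuation `x ^ 4`, the denominator at most `x ^ 3`. -/
theorem dbl_case_ge {ε x d : Γ₀} (hε : ε < 1) (hx : 1 ≤ x) (hd0 : 0 < d) (hd : d ≤ x ^ 3) :
    clip ε ((x ^ 2) ^ 2 / d) = fold ε (clip ε x * clip ε x) := by
  have h1 : (1 : Γ₀) ≤ (x ^ 2) ^ 2 / d := by
    rw [le_div_iff₀ hd0, one_mul]
    calc d ≤ x ^ 3 := hd
      _ ≤ x ^ 4 := pow_le_pow_right₀ hx (by norm_num)
      _ = (x ^ 2) ^ 2 := by rw [← pow_mul]
  rw [dbl_clip_of_one_le hε.le h1, dbl_clip_of_one_le hε.le hx, mul_one, dbl_fold_of_le hε.le]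

/-- `ε < x < 1`, `ε < x ^ 2`. -/
theorem dbl_case3a {ε x : Γ₀} (hεx : ε < x) (hx : x < 1) (h : ε < x ^ 2) :
    clip ε ((x ^ 2) ^ 2 / x ^ 2) = fold ε (clip ε x * clip ε x) := by
  have hx0 : x ≠ 0 := (lt_of_le_of_lt zero_le hεx).ne'
  have h1 : (x ^ 2) ^ 2 / x ^ 2 = x * x := by field_simp
  have h2 : x * x ≤ 1 := by
    calc x * x ≤ 1 * 1 := mul_le_mul' hx.le hx.le
      _ = 1 := one_mul 1
  have h3 : ε ≤ x * x := by rw [← pow_two]; exact h.le
  rw [h1, dbl_clip_of_le_of_le hεx.le hx.le, dbl_clip_of_le_of_le h3 h2, dbl_fold_of_le h3]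

/-- `ε < x < 1`, `x ^ 2 < ε`. -/
theorem dbl_case3b {ε x : Γ₀} (hεx : ε < x) (hx : x < 1) (h : x ^ 2 < ε) :
    clip ε (ε ^ 2 / x ^ 2) = fold ε (clip ε x * clip ε x) := by
  have hx0 : 0 < x := lt_of_le_of_lt zero_le hεx
  have hxx : 0 < x * x := mul_pos hx0 hx0
  have h3 : x * x < ε := by rw [← pow_two]; exact h
  have h4 : ε ≤ ε ^ 2 / (x * x) := by
    rw [le_div_iff₀ hxx, pow_two]
    exact mul_le_mul' le_rfl h3.le
  have h5 : ε ^ 2 / (x * x) ≤ 1 := by
    rw [div_le_one₀ hxx, pow_two]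
    exact mul_le_mul' hεx.le hεx.le
  rw [pow_two x, dbl_clip_of_le_of_le hεx.le hx.le, dbl_clip_of_le_of_le h4 h5, dbl_fold_of_lt h3]

/-- `ε < x < 1`, `x ^ 2 = ε`. -/
theorem dbl_case3c {ε x n : Γ₀} (hεx : ε < x) (hx : x < 1) (h : x ^ 2 = ε) (hn : n ≤ ε) :
    clip ε (n ^ 2 / x ^ 2) = fold ε (clip ε x * clip ε x) := by
  have hx0 : 0 < x := lt_of_le_of_lt zero_le hεx
  have hxx : 0 < x * x := mul_pos hx0 hx0
  have h3 : x * x = ε := by rw [← pow_two]; exact h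
  have h4 : n ^ 2 / (x * x) ≤ ε := by
    rw [div_le_iff₀ hxx, pow_two, h3]
    exact mul_le_mul' hn hn
  rw [pow_two x, dbl_clip_of_le_of_le hεx.le hx.le, dbl_clip_of_le (hεx.le.trans hx.le) h4, h3,
    dbl_fold_of_le le_rfl]

/-- `x ≤ ε`: the numerator has valuation `ε ^ 2`, the denominator at most `ε * x`. -/
theorem dbl_case_le {ε x d : Γ₀} (hε0 : 0 < ε) (hε : ε < 1) (hx : x ≤ ε) (hd0 : 0 < d)
    (hd : d ≤ ε * x) :
    clip ε (ε ^ 2 / d) = fold ε (clip ε x * clip ε x) := by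
  have h1 : (1 : Γ₀) ≤ ε ^ 2 / d := by
    rw [le_div_iff₀ hd0, one_mul, pow_two]
    exact hd.trans (mul_le_mul' le_rfl hx)
  rw [dbl_clip_of_one_le hε.le h1, dbl_clip_of_le hε.le hx, dbl_fold_mul_self hε0 hε]

/-! ### The field-level statements -/

/-- Field-level doubling rule. -/
theorem dbl_field2 (v : Valuation K Γ₀) {b₂ a₄ x : K} (hb₂ : v b₂ = 1) (ha₄0 : a₄ ≠ 0)
    (ha₄ : v a₄ < 1) (hden : 4 * x ^ 3 + b₂ * x ^ 2 + 4 * a₄ * x ≠ 0) :
    clip (v a₄) (v ((x ^ 2 - a₄) ^ 2 / (4 * x ^ 3 + b₂ * x ^ 2 + 4 * a₄ * x))) =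
      fold (v a₄) (clip (v a₄) (v x) * clip (v a₄) (v x)) := by
  have hx0 : x ≠ 0 := by
    intro h
    apply hden
    rw [h]
    ring
  have hε0 : 0 < v a₄ := v.pos_iff.mpr ha₄0
  have ha0 : 0 < v x := v.pos_iff.mpr hx0
  have hd0 : 0 < v (4 * x ^ 3 + b₂ * x ^ 2 + 4 * a₄ * x) := v.pos_iff.mpr hden
  have hX2 : v (x ^ 2) = v x ^ 2 := map_pow v x 2
  have hT1 : v (4 * x ^ 3) ≤ v x ^ 3 := by
    have h := val_four_mul_le v (x ^ 3)
    rwa [map_pow] at h
  have hT2 : v (b₂ * x ^ 2) = v x ^ 2 := by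
    rw [map_mul, hb₂, one_mul, map_pow]
  have hT3 : v (4 * a₄ * x) ≤ v a₄ * v x := by
    have h := val_four_mul_le v (a₄ * x)
    rwa [map_mul v a₄ x, ← mul_assoc] at h
  rw [map_div₀, map_pow]
  rcases le_or_gt 1 (v x) with hx1 | hx1
  · -- `1 ≤ v x`: only a bound for the denominator
    have hn : v (x ^ 2 - a₄) = v x ^ 2 := by
      rw [Valuation.map_sub_eq_of_lt_left v
        (by rw [hX2]; exact lt_of_lt_of_le ha₄ (one_le_pow₀ hx1)), hX2]
    have hd : v (4 * x ^ 3 + b₂ * x ^ 2 + 4 * a₄ * x) ≤ v x ^ 3 := by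
      refine Valuation.map_add_le v (Valuation.map_add_le v hT1 ?_) ?_
      · rw [hT2]
        exact pow_le_pow_right₀ hx1 (by norm_num)
      · refine hT3.trans ?_
        calc v a₄ * v x ≤ 1 * v x := mul_le_mul' ha₄.le le_rfl
          _ = v x ^ 1 := by rw [one_mul, pow_one]
          _ ≤ v x ^ 3 := pow_le_pow_right₀ hx1 (by norm_num)
    rw [hn]
    exact dbl_case_ge ha₄ hx1 hd0 hd
  · rcases le_or_gt (v x) (v a₄) with hxε | hxε
    · -- `v x ≤ v a₄`: only a bound for the denominator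
      have hxx : v x ^ 2 < v a₄ := by
        rw [pow_two]
        calc v x * v x ≤ v a₄ * v x := mul_le_mul' hxε le_rfl
          _ < v a₄ * 1 := by
            rw [mul_lt_mul_iff_right₀ hε0]
            exact hx1
          _ = v a₄ := mul_one _
      have hn : v (x ^ 2 - a₄) = v a₄ :=
        Valuation.map_sub_eq_of_lt_right v (by rw [hX2]; exact hxx)
      have hd : v (4 * x ^ 3 + b₂ * x ^ 2 + 4 * a₄ * x) ≤ v a₄ * v x := by
        refine Valuation.map_add_le v (Valuation.map_add_le v (hT1.trans ?_) ?_) hT3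
        · calc v x ^ 3 = v x ^ 2 * v x := pow_succ _ _
            _ ≤ v a₄ * v x := mul_le_mul' hxx.le le_rfl
        · rw [hT2, pow_two]
          exact mul_le_mul' hxε le_rfl
      rw [hn]
      exact dbl_case_le hε0 ha₄ hxε hd0 hd
    · -- `v a₄ < v x < 1`: the `b₂`-term strictly dominates the denominator
      have h32 : v x ^ 3 < v x ^ 2 := by
        calc v x ^ 3 = v x ^ 2 * v x := pow_succ _ _
          _ < v x ^ 2 * 1 := by
            rw [mul_lt_mul_iff_right₀ (pow_pos ha0 2)]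
            exact hx1
          _ = v x ^ 2 := mul_one _
      have h12 : v a₄ * v x < v x ^ 2 := by
        rw [pow_two, mul_lt_mul_iff_left₀ ha0]
        exact hxε
      have hd1 : v (4 * x ^ 3 + b₂ * x ^ 2) = v x ^ 2 := by
        rw [Valuation.map_add_eq_of_lt_right v (by rw [hT2]; exact lt_of_le_of_lt hT1 h32), hT2]
      have hd : v (4 * x ^ 3 + b₂ * x ^ 2 + 4 * a₄ * x) = v x ^ 2 := by
        rw [Valuation.map_add_eq_of_lt_left v (by rw [hd1]; exact lt_of_le_of_lt hT3 h12), hd1]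
      rw [hd]
      rcases lt_trichotomy (v x ^ 2) (v a₄) with h | h | h
      · have hn : v (x ^ 2 - a₄) = v a₄ :=
          Valuation.map_sub_eq_of_lt_right v (by rw [hX2]; exact h)
        rw [hn]
        exact dbl_case3b hxε hx1 h
      · have hn : v (x ^ 2 - a₄) ≤ v a₄ :=
          Valuation.map_sub_le v (by rw [hX2, h]) le_rfl
        exact dbl_case3c hxε hx1 h hn
      · have hn : v (x ^ 2 - a₄) = v x ^ 2 := by
          rw [Valuation.map_sub_eq_of_lt_left v (by rw [hX2]; exact h), hX2]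
        rw [hn]
        exact dbl_case3a hxε hx1 h

/-- If the doubling denominator vanishes then the level of `x` is `ε` or `1`:
`x = 0` (level `ε`), or `4x² + b₂x + 4a₄ = 0`, and then `v x = v (b₂ x) = v (4x² + 4a₄) ≤
max (v x ^ 2) (v a₄)`, so `1 ≤ v x` (level `1`) or `v x ≤ v a₄` (level `ε`). -/
theorem clip_of_den_eq_zero (v : Valuation K Γ₀) {b₂ a₄ x : K} (hb₂ : v b₂ = 1)
    (ha₄ : v a₄ < 1) (hden : 4 * x ^ 3 + b₂ * x ^ 2 + 4 * a₄ * x = 0) :
    clip (v a₄) (v x) = v a₄ ∨ clip (v a₄) (v x) = 1 := by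
  by_cases hx0 : x = 0
  · left
    rw [hx0, map_zero]
    exact dbl_clip_of_le ha₄.le zero_le
  · have ha0 : 0 < v x := v.pos_iff.mpr hx0
    have hq : b₂ * x = -(4 * x ^ 2 + 4 * a₄) := by
      have h1 : x * (4 * x ^ 2 + b₂ * x + 4 * a₄) = 0 := by
        rw [← hden]
        ring
      have h2 : 4 * x ^ 2 + b₂ * x + 4 * a₄ = 0 := (mul_eq_zero.mp h1).resolve_left hx0
      linear_combination h2
    have hv : v x = v (4 * x ^ 2 + 4 * a₄) := by
      have h := congrArg v hq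
      rw [Valuation.map_neg, map_mul, hb₂, one_mul] at h
      exact h
    have h4x : v (4 * x ^ 2) ≤ v x ^ 2 := by
      have h := val_four_mul_le v (x ^ 2)
      rwa [map_pow] at h
    have h4a : v (4 * a₄) ≤ v a₄ := val_four_mul_le v a₄
    rcases le_or_gt (v x) (v a₄) with hxε | hxε
    · left
      exact dbl_clip_of_le ha₄.le hxε
    · right
      apply dbl_clip_of_one_le ha₄.le
      by_contra hlt
      rw [not_le] at hlt
      have hxx : v x ^ 2 < v x := by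
        rw [pow_two]
        calc v x * v x < v x * 1 := by
              rw [mul_lt_mul_iff_right₀ ha0]
              exact hlt
          _ = v x := mul_one _
      have hcontra : v (4 * x ^ 2 + 4 * a₄) < v x :=
        Valuation.map_add_lt v (lt_of_le_of_lt h4x hxx) (lt_of_le_of_lt h4a hxε)
      rw [← hv] at hcontra
      exact lt_irrefl _ hcontra

end Fermat.Agent.S13.TwoAdic.XCore
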