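import Fermat.Agent.S13.TwoAdic.XCore.Basic

/-!
# S13 / TwoAdic / XCore: the kernel of reduction `G1 = {0} ∪ {P | 1 < v x(P)}` is a subgroup
(one worker; statements frozen by helper16)

PORT of `Fermat/Agent/S05/Core/G1.lean` (READ-ONLY template) to `XModel` without `v 2 = 1`.
For `P, Q ∈ G1 \ {0}` with `x₁ ≠ x₂` (`M.add_sub`): `v Π = (v x₁ v x₂)² / v(x₁-x₂)² > 1`
(`v (x₁x₂ - a₄) = v x₁ * v x₂` since `v a₄ ≤ 1 < v x₁ v x₂`) and
`v (2 (x₁x₂ + a₄)(x₁ + x₂) + b₂ x₁x₂) ≤ max (v x₁) (v x₂) * (v x₁ * v x₂) < (v x₁ v x₂)²`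
(uses only `v 2 ≤ 1` and `v b₂ ≤ 1`), so `v S < v Π`; conclude with the template lemma
`G1.one_lt_of_sum_prod` (you may cite `Fermat.Agent.S05.G1.one_lt_of_sum_prod`, `max_lt_mul`,
`one_le_mul`, `pos_of_one_lt` directly from the S05 file: add `import Fermat.Agent.S05.Core.G1`
if you wish — it is a landed read-only file).
For `x₁ = x₂`: `Q = P` or `Q = -P` (`M.eq_or_eq_neg`); `P + (-P) = 0`; doubling (`M.two`): if the
denominator `D = 4x³ + b₂x² + 4a₄x` vanishes then `P + P = 0 ∈ G1`; otherwise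
`x(2P) = (x² - a₄)² / D` with `v (x² - a₄) = (v x)²` and `v D ≤ (v x)³` (each of the three terms is
`≤ (v x)³` because `1 < v x`, `v 4 ≤ 1`, `v b₂ ≤ 1`, `v a₄ ≤ 1`), so `v x(2P) ≥ v x > 1`.
(Here the template has an equality `v x(2P) = v x`; only `≥` survives and only `>  1` is needed.)
-/

set_option autoImplicit false

namespace Fermat.Agent.S13.TwoAdic.XCore

variable {K : Type*} [Field K] {Γ₀ : Type*} [LinearOrderedCommGroupWithZero Γ₀]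
variable {b₂ a₄ : K} {G : Type*} [AddCommGroup G] (M : XModel K b₂ a₄ G) (v : Valuation K Γ₀)

/-- If the sum of two elements has smaller valuation than their product and the product is
non-integral, then both elements are non-integral (copy of `Fermat.Agent.S05.G1.one_lt_of_sum_prod`). -/
theorem g1_one_lt_of_sum_prod {r₁ r₂ S Pr : K} (hS : r₁ + r₂ = S) (hPr : r₁ * r₂ = Pr)
    (h1 : v S < v Pr) (h2 : 1 < v Pr) : 1 < v r₁ := by
  by_contra hcon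
  rw [not_lt] at hcon
  have h3 : v Pr ≤ v r₂ := by
    rw [← hPr, map_mul]
    calc v r₁ * v r₂ ≤ 1 * v r₂ := mul_le_mul' hcon le_rfl
      _ = v r₂ := one_mul _
  have h4 : v r₁ < v r₂ := lt_of_le_of_lt hcon (lt_of_lt_of_le h2 h3)
  have h5 : v S = v r₂ := by
    rw [← hS]
    exact Valuation.map_add_eq_of_lt_right v h4
  rw [h5] at h1
  exact absurd h1 (not_lt.mpr h3)

theorem g1_pos_of_one_lt {a : Γ₀} (ha : 1 < a) : 0 < a := lt_trans zero_lt_one ha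

/-- `max a b < a * b` for `1 < a`, `1 < b`. -/
theorem g1_max_lt_mul {a b : Γ₀} (ha : 1 < a) (hb : 1 < b) : max a b < a * b := by
  have ha0 : 0 < a := g1_pos_of_one_lt ha
  have hb0 : 0 < b := g1_pos_of_one_lt hb
  apply max_lt
  · calc a = a * 1 := (mul_one a).symm
      _ < a * b := mul_lt_mul_of_pos_left hb ha0
  · calc b = 1 * b := (one_mul b).symm
      _ < a * b := mul_lt_mul_of_pos_right ha hb0

theorem g1_one_lt_mul {a b : Γ₀} (ha : 1 < a) (hb : 1 < b) : 1 < a * b :=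
  lt_of_le_of_lt (le_max_of_le_left ha.le) (g1_max_lt_mul ha hb)

/-- `v (x₁ x₂ - a₄) = v x₁ * v x₂` for non-integral `x₁, x₂` and integral `a₄`. -/
theorem g1_v_mul_sub {x₁ x₂ a : K} (ha : v a ≤ 1) (h1 : 1 < v x₁) (h2 : 1 < v x₂) :
    v (x₁ * x₂ - a) = v x₁ * v x₂ := by
  have h : v a < v (x₁ * x₂) := by
    rw [map_mul]
    exact lt_of_le_of_lt ha (g1_one_lt_mul h1 h2)
  rw [Valuation.map_sub_eq_of_lt_left v h, map_mul]

/-- Bound for the numerator of the sum `x(P + Q) + x(P - Q)`; uses only `v 2 ≤ 1`, `v b ≤ 1`. -/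
theorem g1_v_num_le {x₁ x₂ a b : K} (hb : v b ≤ 1) (ha : v a ≤ 1) (h1 : 1 < v x₁)
    (h2 : 1 < v x₂) :
    v (2 * (x₁ * x₂ + a) * (x₁ + x₂) + b * x₁ * x₂) ≤ max (v x₁) (v x₂) * (v x₁ * v x₂) := by
  apply Valuation.map_add_le
  · refine le_trans (val_T1_le v a x₁ x₂) ?_
    rw [mul_comm]
    apply mul_le_mul' (v.map_add x₁ x₂)
    apply Valuation.map_add_le
    · rw [map_mul]
    · exact le_trans ha (g1_one_lt_mul h1 h2).le
  · rw [map_mul, map_mul, mul_assoc]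
    apply mul_le_mul' _ le_rfl
    exact le_trans hb (le_max_of_le_left h1.le)

/-- Both roots of the "sum/product" system for `x(P ± Q)` are non-integral. -/
theorem g1_one_lt_add_sub {x₁ x₂ a b r₁ r₂ : K} (hb : v b ≤ 1) (ha : v a ≤ 1)
    (h1 : 1 < v x₁) (h2 : 1 < v x₂) (hne : x₁ ≠ x₂)
    (hS : r₁ + r₂ = (2 * (x₁ * x₂ + a) * (x₁ + x₂) + b * x₁ * x₂) / (x₁ - x₂) ^ 2)
    (hPr : r₁ * r₂ = (x₁ * x₂ - a) ^ 2 / (x₁ - x₂) ^ 2) : 1 < v r₁ ∧ 1 < v r₂ := by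
  have hd0 : v (x₁ - x₂) ≠ 0 := (Valuation.ne_zero_iff v).mpr (sub_ne_zero.mpr hne)
  have hdpos : 0 < v (x₁ - x₂) ^ 2 := pow_pos (zero_lt_iff.mpr hd0) 2
  have hd : v (x₁ - x₂) ≤ max (v x₁) (v x₂) := Valuation.map_sub v x₁ x₂
  have hmax : max (v x₁) (v x₂) < v x₁ * v x₂ := g1_max_lt_mul h1 h2
  have hpos : 0 < v x₁ * v x₂ := g1_pos_of_one_lt (g1_one_lt_mul h1 h2)
  have hSPr : v ((2 * (x₁ * x₂ + a) * (x₁ + x₂) + b * x₁ * x₂) / (x₁ - x₂) ^ 2)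
      < v ((x₁ * x₂ - a) ^ 2 / (x₁ - x₂) ^ 2) := by
    rw [map_div₀, map_div₀, map_pow, map_pow, g1_v_mul_sub v ha h1 h2]
    apply div_lt_div_of_pos_right _ hdpos
    calc v (2 * (x₁ * x₂ + a) * (x₁ + x₂) + b * x₁ * x₂)
        ≤ max (v x₁) (v x₂) * (v x₁ * v x₂) := g1_v_num_le v hb ha h1 h2
      _ < (v x₁ * v x₂) * (v x₁ * v x₂) := mul_lt_mul_of_pos_right hmax hpos
      _ = (v x₁ * v x₂) ^ 2 := (pow_two _).symm
  have hPr1 : 1 < v ((x₁ * x₂ - a) ^ 2 / (x₁ - x₂) ^ 2) := by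
    rw [map_div₀, map_pow, map_pow, g1_v_mul_sub v ha h1 h2, one_lt_div₀ hdpos]
    exact pow_lt_pow_left₀ (lt_of_le_of_lt hd hmax) zero_le two_ne_zero
  exact ⟨g1_one_lt_of_sum_prod v hS hPr hSPr hPr1,
    g1_one_lt_of_sum_prod v ((add_comm r₂ r₁).trans hS) ((mul_comm r₂ r₁).trans hPr) hSPr hPr1⟩

/-- `x(2P)` is non-integral for `P` in the kernel of reduction (only `≥ v x` survives without
`v 2 = 1`). -/
theorem g1_one_lt_dbl {x a b : K} (hb : v b ≤ 1) (ha : v a ≤ 1) (h1 : 1 < v x)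
    (hD : 4 * x ^ 3 + b * x ^ 2 + 4 * a * x ≠ 0) :
    1 < v ((x ^ 2 - a) ^ 2 / (4 * x ^ 3 + b * x ^ 2 + 4 * a * x)) := by
  have hx0 : 0 < v x := g1_pos_of_one_lt h1
  have hnum : v (x ^ 2 - a) = v x * v x := by
    rw [pow_two, g1_v_mul_sub v ha h1 h1]
  have hDpos : 0 < v (4 * x ^ 3 + b * x ^ 2 + 4 * a * x) :=
    zero_lt_iff.mpr ((Valuation.ne_zero_iff v).mpr hD)
  have h12 : v x ≤ v x ^ 2 := by
    calc v x = v x * 1 := (mul_one _).symm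
      _ ≤ v x * v x := mul_le_mul' le_rfl h1.le
      _ = v x ^ 2 := (pow_two _).symm
  have h23 : v x ^ 2 ≤ v x ^ 3 := by
    calc v x ^ 2 = v x ^ 2 * 1 := (mul_one _).symm
      _ ≤ v x ^ 2 * v x := mul_le_mul' le_rfl h1.le
      _ = v x ^ 3 := (pow_succ (v x) 2).symm
  have h34 : v x ^ 3 < v x ^ 4 := by
    calc v x ^ 3 = v x ^ 3 * 1 := (mul_one _).symm
      _ < v x ^ 3 * v x := mul_lt_mul_of_pos_left h1 (pow_pos hx0 3)
      _ = v x ^ 4 := (pow_succ (v x) 3).symm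
  have hDle : v (4 * x ^ 3 + b * x ^ 2 + 4 * a * x) ≤ v x ^ 3 := by
    apply Valuation.map_add_le
    · apply Valuation.map_add_le
      · refine le_trans (val_four_mul_le v (x ^ 3)) ?_
        rw [map_pow]
      · rw [map_mul, map_pow]
        calc v b * v x ^ 2 ≤ 1 * v x ^ 2 := mul_le_mul' hb le_rfl
          _ = v x ^ 2 := one_mul _
          _ ≤ v x ^ 3 := h23
    · rw [mul_assoc]
      refine le_trans (val_four_mul_le v (a * x)) ?_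
      rw [map_mul]
      calc v a * v x ≤ 1 * v x := mul_le_mul' ha le_rfl
        _ = v x := one_mul _
        _ ≤ v x ^ 3 := le_trans h12 h23
  rw [map_div₀, map_pow, hnum, one_lt_div₀ hDpos]
  calc v (4 * x ^ 3 + b * x ^ 2 + 4 * a * x) ≤ v x ^ 3 := hDle
    _ < v x ^ 4 := h34
    _ = (v x * v x) ^ 2 := by rw [← pow_two, ← pow_mul]

theorem G1_neg {P : G} (hP : P ∈ M.G1 v) : -P ∈ M.G1 v := by
  rcases hP with h0 | ⟨x, h, hx⟩
  · rw [h0, neg_zero]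
    exact M.zero_mem_G1 v
  · exact M.mem_G1_of_xc v ((M.xc_neg P).trans h) hx

theorem G1_add (hb₂ : v b₂ ≤ 1) (ha₄ : v a₄ ≤ 1) {P Q : G} (hP : P ∈ M.G1 v)
    (hQ : Q ∈ M.G1 v) : P + Q ∈ M.G1 v := by
  rcases hP with h0 | ⟨x₁, hc₁, hx₁⟩
  · rw [h0, zero_add]
    exact hQ
  rcases hQ with h0 | ⟨x₂, hc₂, hx₂⟩
  · rw [h0, add_zero]
    exact M.mem_G1_of_xc v hc₁ hx₁
  by_cases hne : x₁ = x₂
  · subst hne
    rcases M.eq_or_eq_neg hc₁ hc₂ with hQP | hQP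
    · rw [hQP]
      by_cases hD : 4 * x₁ ^ 3 + b₂ * x₁ ^ 2 + 4 * a₄ * x₁ = 0
      · rw [(M.two hc₁).1 hD]
        exact M.zero_mem_G1 v
      · exact M.mem_G1_of_xc v ((M.two hc₁).2 hD) (g1_one_lt_dbl v hb₂ ha₄ hx₁ hD)
    · rw [hQP, add_neg_cancel]
      exact M.zero_mem_G1 v
  · obtain ⟨r₁, r₂, hp, hm, hS, hPr⟩ := M.add_sub hc₁ hc₂ hne
    exact M.mem_G1_of_xc v hp (g1_one_lt_add_sub v hb₂ ha₄ hx₁ hx₂ hne hS hPr).1

theorem G1_sub (hb₂ : v b₂ ≤ 1) (ha₄ : v a₄ ≤ 1) {P Q : G} (hP : P ∈ M.G1 v)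
    (hQ : Q ∈ M.G1 v) : P - Q ∈ M.G1 v := by
  rw [sub_eq_add_neg]
  exact G1_add M v hb₂ ha₄ hP (G1_neg M v hQ)

end Fermat.Agent.S13.TwoAdic.XCore
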