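import Fermat.Agent.S13.TwoAdic.XCore.Basic

/-!
# S13 / TwoAdic / XCore: field-level unordered rule, case family A (`v a₄ < v x₁ * v x₂`, `v x₂ < v x₁`)
(one worker; statements frozen by helper16)

PORT of `Fermat/Agent/S05/Core/URA.lean` (READ-ONLY template: copy its lemmas under the same names
into this file's namespace and adapt).  Dictionary: `α β` ↦ `a₄ = α β` (so `v (α β) = v α` becomes
just `v a₄`), `-4 (α + β)` ↦ `b₂` with `v b₂ = 1` (`H.hb₂`); `URHyp` ↦ `URHyp2`;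
`S = (T1 + T2) / (x₁ - x₂)²` with `T1 = 2 (x₁x₂ + a₄)(x₁ + x₂)`, `T2 = b₂ x₁ x₂`,
`Π = (x₁x₂ - a₄)² / (x₁ - x₂)²`.
THE ONLY CHANGE: there is NO hypothesis `v 2 = 1`; only `v 2 ≤ 1` (`val_two_le`, `val_two_mul_le`
in Basic.lean).  So `v T2 = v x₁ * v x₂` exactly (`val_T2 H`), while for `T1` only the upper bound
`v T1 ≤ v (x₁x₂ + a₄) * v (x₁ + x₂)` (`val_T1_le`) is available.  In every case below either `T1` is
strictly dominated by `T2` (then `v (T1 + T2) = v x₁ * v x₂` by `Valuation.map_add_eq_of_lt_left`),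
or only an upper bound for `v S` is needed.  Then `newton_two_roots` (S05 Core/Newton.lean) and the
clip/fold/qt bookkeeping of the template apply verbatim.
Additive notation: `w = -log v`, `ω = w(2) ≥ 0`, `N = w(a₄) > 0`, `i = w(x₁)`, `j = w(x₂)`,
`w(T2) = i + j`, `w(T1) ≥ ω + min(i + j, N) + min(i, j)`.
Family A (`i < j`, `i + j < N`): `w(x₁ - x₂) = i`, `w(x₁x₂ - a₄) = i + j`, `w(Π) = 2j`.
* A1 (`0 < i`): `w(T1) ≥ ω + 2i + j > i + j = w(T2)`, so `w(S) = j - i` exactly; roots `{j - i, j + i}`.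
* A2 (`i = 0`): `w(T1) ≥ j`, `w(T2) = j`, so `w(S) ≥ j`; `2 w(S) ≥ w(Π)` ⇒ both roots have `w = j`.
* A3 (`i < 0`): `w(T1) ≥ 2i + j`, `w(T2) = i + j ≥ 2i + j`, so `w(S) ≥ j` (only this BOUND; the template
  proves equality using `v 2 = 1`, which is false here and not needed); both roots have `w = j`.
-/

set_option autoImplicit false

namespace Fermat.Agent.S13.TwoAdic.XCore

open Fermat.Agent.S05 (fold qt clip URConcl newton_two_roots)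

variable {K : Type*} [Field K] {Γ₀ : Type*} [LinearOrderedCommGroupWithZero Γ₀]
variable {v : Valuation K Γ₀} {b₂ a₄ x₁ x₂ r₁ r₂ : K}

namespace URA

/-! ### Elementary facts on `clip`, `fold`, `qt` -/

theorem clip_eq_self {ε u : Γ₀} (h1 : ε ≤ u) (h2 : u ≤ 1) : clip ε u = u := by
  unfold clip
  rw [min_eq_right h2, max_eq_right h1]

theorem clip_of_one_le {ε u : Γ₀} (hε : ε ≤ 1) (h : 1 ≤ u) : clip ε u = 1 := by
  unfold clip
  rw [min_eq_left h, max_eq_right hε]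

theorem le_clip (ε u : Γ₀) : ε ≤ clip ε u := le_max_left _ _

theorem clip_le_one {ε : Γ₀} (hε : ε ≤ 1) (u : Γ₀) : clip ε u ≤ 1 :=
  max_le hε (min_le_left _ _)

theorem fold_eq_self {ε u : Γ₀} (h : ε ≤ u) : fold ε u = u := if_pos h

/-- `qt s t = t / s` for `0 < t ≤ s`. -/
theorem qt_eq_div {s t : Γ₀} (ht : 0 < t) (h : t ≤ s) : qt s t = t / s := by
  unfold qt
  apply min_eq_right
  exact ((div_le_one₀ (ht.trans_le h)).mpr h).trans ((one_le_div₀ ht).mpr h)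

/-- `qt 1 t = t` for `0 < t ≤ 1`. -/
theorem qt_one_left {t : Γ₀} (ht : 0 < t) (h : t ≤ 1) : qt 1 t = t := by
  rw [qt_eq_div ht h, div_one]

/-! ### Valuations of the ingredients (family A: `v x₂ < v x₁`, `v a₄ < v x₁ * v x₂`) -/

theorem prod_pos (hA : v a₄ < v x₁ * v x₂) : 0 < v x₁ * v x₂ := lt_of_le_of_lt zero_le hA

theorem a_pos (hA : v a₄ < v x₁ * v x₂) : 0 < v x₁ :=
  zero_lt_iff.mpr (left_ne_zero_of_mul (prod_pos hA).ne')

theorem b_pos (hA : v a₄ < v x₁ * v x₂) : 0 < v x₂ :=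
  zero_lt_iff.mpr (right_ne_zero_of_mul (prod_pos hA).ne')

theorem val_sub (hlt : v x₂ < v x₁) : v (x₁ - x₂) = v x₁ :=
  Valuation.map_sub_eq_of_lt_left v hlt

theorem val_add (hlt : v x₂ < v x₁) : v (x₁ + x₂) = v x₁ :=
  Valuation.map_add_eq_of_lt_left v hlt

theorem val_prod_sub (hA : v a₄ < v x₁ * v x₂) : v (x₁ * x₂ - a₄) = v x₁ * v x₂ := by
  have h : v a₄ < v (x₁ * x₂) := by
    rw [map_mul]
    exact hA
  rw [Valuation.map_sub_eq_of_lt_left v h, map_mul]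

theorem val_prod_add (hA : v a₄ < v x₁ * v x₂) : v (x₁ * x₂ + a₄) = v x₁ * v x₂ := by
  have h : v a₄ < v (x₁ * x₂) := by
    rw [map_mul]
    exact hA
  rw [Valuation.map_add_eq_of_lt_left v h, map_mul]

/-- `v Π = (v x₂)²`. -/
theorem val_Pi (hlt : v x₂ < v x₁) (hA : v a₄ < v x₁ * v x₂) :
    v ((x₁ * x₂ - a₄) ^ 2 / (x₁ - x₂) ^ 2) = v x₂ ^ 2 := by
  rw [map_div₀, map_pow, map_pow, val_prod_sub hA, val_sub hlt, mul_pow, mul_comm,
    mul_div_assoc, div_self (pow_ne_zero 2 (a_pos hA).ne'), mul_one]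

/-- The valuation of the first term `T1` of the numerator of `S` is at most `v x₁ * (v x₁ * v x₂)`
(only a bound: `v 2 ≤ 1`). -/
theorem val_num_fst_le (hlt : v x₂ < v x₁) (hA : v a₄ < v x₁ * v x₂) :
    v (2 * (x₁ * x₂ + a₄) * (x₁ + x₂)) ≤ v x₁ * (v x₁ * v x₂) := by
  have h := val_T1_le v a₄ x₁ x₂
  rw [val_prod_add hA, val_add hlt] at h
  rw [mul_comm (v x₁) (v x₁ * v x₂)]
  exact h

/-- `v S = v (numerator) / (v x₁)²`. -/
theorem val_S (hlt : v x₂ < v x₁) :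
    v ((2 * (x₁ * x₂ + a₄) * (x₁ + x₂) + b₂ * x₁ * x₂) / (x₁ - x₂) ^ 2)
      = v (2 * (x₁ * x₂ + a₄) * (x₁ + x₂) + b₂ * x₁ * x₂) / v x₁ ^ 2 := by
  rw [map_div₀, map_pow, val_sub hlt]

/-! ### Case `v x₁ < 1` -/

/-- In case A1 the numerator of `S` has valuation `v x₁ * v x₂`. -/
theorem val_num_A1 (H : URHyp2 v b₂ a₄ x₁ x₂ r₁ r₂) (hlt : v x₂ < v x₁)
    (hA : v a₄ < v x₁ * v x₂) (h1 : v x₁ < 1) :
    v (2 * (x₁ * x₂ + a₄) * (x₁ + x₂) + b₂ * x₁ * x₂) = v x₁ * v x₂ := by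
  have h : v (2 * (x₁ * x₂ + a₄) * (x₁ + x₂)) < v (b₂ * x₁ * x₂) := by
    rw [val_T2 H]
    exact (val_num_fst_le hlt hA).trans_lt (mul_lt_of_lt_one_left (prod_pos hA) h1)
  rw [Valuation.map_add_eq_of_lt_right v h, val_T2 H]

/-- In case A1, `v S = v x₂ / v x₁`. -/
theorem val_S_A1 (H : URHyp2 v b₂ a₄ x₁ x₂ r₁ r₂) (hlt : v x₂ < v x₁)
    (hA : v a₄ < v x₁ * v x₂) (h1 : v x₁ < 1) :
    v (r₁ + r₂) = v x₂ / v x₁ := by
  have ha := a_pos hA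
  rw [H.hsum, val_S hlt, val_num_A1 H hlt hA h1, pow_two, mul_comm (v x₁) (v x₂),
    mul_div_mul_right _ _ ha.ne']

/-- In case A1 the valuations of the two roots are `v x₂ / v x₁` and `v x₁ * v x₂`. -/
theorem roots_A1 (H : URHyp2 v b₂ a₄ x₁ x₂ r₁ r₂) (hlt : v x₂ < v x₁)
    (hA : v a₄ < v x₁ * v x₂) (h1 : v x₁ < 1) :
    (v r₁ = v x₂ / v x₁ ∧ v r₂ = v x₁ * v x₂) ∨ (v r₂ = v x₂ / v x₁ ∧ v r₁ = v x₁ * v x₂) := by
  have ha := a_pos hA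
  have hb := b_pos hA
  have hS := val_S_A1 H hlt hA h1
  have hP : v (r₁ * r₂) = v x₂ ^ 2 := by rw [H.hprod, val_Pi hlt hA]
  have hq : v x₂ / v x₁ ≠ 0 := div_ne_zero hb.ne' ha.ne'
  have hlt' : v (r₁ * r₂) < v (r₁ + r₂) ^ 2 := by
    rw [hP, hS]
    apply pow_lt_pow_left₀ _ zero_le two_ne_zero
    rw [lt_div_iff₀ ha]
    exact mul_lt_of_lt_one_right hb h1
  have key : v x₁ * v x₂ * (v x₂ / v x₁) = v x₂ ^ 2 := by
    rw [mul_comm (v x₁) (v x₂), mul_assoc, mul_div_cancel₀ _ ha.ne', pow_two]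
  rcases (newton_two_roots v rfl rfl).1 hlt' with ⟨h, h'⟩ | ⟨h, h'⟩
  · left
    refine ⟨h.trans hS, ?_⟩
    rw [hS, hP, ← key] at h'
    exact mul_right_cancel₀ hq h'
  · right
    refine ⟨h.trans hS, ?_⟩
    rw [hS, hP, ← key] at h'
    exact mul_right_cancel₀ hq h'

/-! ### Case `1 ≤ v x₁` -/

/-- For `1 ≤ v x₁` the numerator of `S` has valuation at most `v x₂ * (v x₁)²`. -/
theorem val_num_le (H : URHyp2 v b₂ a₄ x₁ x₂ r₁ r₂) (hlt : v x₂ < v x₁)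
    (hA : v a₄ < v x₁ * v x₂) (h1 : 1 ≤ v x₁) :
    v (2 * (x₁ * x₂ + a₄) * (x₁ + x₂) + b₂ * x₁ * x₂) ≤ v x₂ * v x₁ ^ 2 := by
  have e : v x₂ * v x₁ ^ 2 = v x₁ * (v x₁ * v x₂) := by
    rw [pow_two, mul_comm, mul_assoc]
  apply Valuation.map_add_le
  · rw [e]
    exact val_num_fst_le hlt hA
  · rw [val_T2 H, e]
    exact le_mul_of_one_le_left zero_le h1

/-- For `1 ≤ v x₁`, `v S ≤ v x₂`. -/
theorem val_S_le (H : URHyp2 v b₂ a₄ x₁ x₂ r₁ r₂) (hlt : v x₂ < v x₁)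
    (hA : v a₄ < v x₁ * v x₂) (h1 : 1 ≤ v x₁) :
    v (r₁ + r₂) ≤ v x₂ := by
  have ha := a_pos hA
  rw [H.hsum, val_S hlt, div_le_iff₀ (pow_pos ha 2)]
  exact val_num_le H hlt hA h1

/-- For `1 ≤ v x₁` both roots have valuation `v x₂`. -/
theorem roots_of_one_le (H : URHyp2 v b₂ a₄ x₁ x₂ r₁ r₂) (hlt : v x₂ < v x₁)
    (hA : v a₄ < v x₁ * v x₂) (h1 : 1 ≤ v x₁) :
    v r₁ = v x₂ ∧ v r₂ = v x₂ := by
  have hP : v (r₁ * r₂) = v x₂ ^ 2 := by rw [H.hprod, val_Pi hlt hA]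
  have hle : v (r₁ + r₂) ^ 2 ≤ v (r₁ * r₂) := by
    rw [hP]
    exact pow_le_pow_left₀ zero_le (val_S_le H hlt hA h1) 2
  obtain ⟨h, h'⟩ := (newton_two_roots v rfl rfl).2 hle
  have h1' : v r₁ = v x₂ := by
    rw [hP] at h'
    exact (pow_left_inj₀ zero_le zero_le two_ne_zero).mp h'
  exact ⟨h1', h.symm.trans h1'⟩

/-- The conclusion of the unordered rule when `1 ≤ v x₁` (cases A2 and A3). -/
theorem concl_of_one_le (H : URHyp2 v b₂ a₄ x₁ x₂ r₁ r₂) (hlt : v x₂ < v x₁)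
    (hA : v a₄ < v x₁ * v x₂) (h1 : 1 ≤ v x₁) :
    URConcl (v a₄) (v x₁) (v x₂) (v r₁) (v r₂) := by
  obtain ⟨hr₁, hr₂⟩ := roots_of_one_le H hlt hA h1
  have hε := eps_pos H
  have hs : clip (v a₄) (v x₁) = 1 := clip_of_one_le H.ha₄.le h1
  have ht0 : 0 < clip (v a₄) (v x₂) := hε.trans_le (le_clip _ _)
  have ht1 : clip (v a₄) (v x₂) ≤ 1 := clip_le_one H.ha₄.le _
  left
  rw [hr₁, hr₂, hs, one_mul, fold_eq_self (le_clip _ _), qt_one_left ht0 ht1]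
  exact ⟨rfl, rfl⟩

end URA

theorem ur_A1 (H : URHyp2 v b₂ a₄ x₁ x₂ r₁ r₂) (hlt : v x₂ < v x₁) (hA : v a₄ < v x₁ * v x₂)
    (h1 : v x₁ < 1) : URConcl (v a₄) (v x₁) (v x₂) (v r₁) (v r₂) := by
  have ha := URA.a_pos hA
  have hb := URA.b_pos hA
  have hb1 : v x₂ < 1 := hlt.trans h1
  -- `ε < a b < b < a < 1`
  have hab_b : v x₁ * v x₂ < v x₂ := mul_lt_of_lt_one_left hb h1
  have hab_a : v x₁ * v x₂ < v x₁ := mul_lt_of_lt_one_right ha hb1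
  have hb_q : v x₂ ≤ v x₂ / v x₁ := by
    rw [le_div_iff₀ ha]
    exact mul_le_of_le_one_right zero_le h1.le
  have hq1 : v x₂ / v x₁ ≤ 1 := (div_le_one₀ ha).mpr hlt.le
  have hs : clip (v a₄) (v x₁) = v x₁ := URA.clip_eq_self (hA.trans hab_a).le h1.le
  have ht : clip (v a₄) (v x₂) = v x₂ := URA.clip_eq_self (hA.trans hab_b).le hb1.le
  have hcq : clip (v a₄) (v x₂ / v x₁) = v x₂ / v x₁ :=
    URA.clip_eq_self ((hA.trans hab_b).le.trans hb_q) hq1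
  have hcp : clip (v a₄) (v x₁ * v x₂) = v x₁ * v x₂ :=
    URA.clip_eq_self hA.le (hab_a.trans h1).le
  have hfold : fold (v a₄) (v x₁ * v x₂) = v x₁ * v x₂ := URA.fold_eq_self hA.le
  have hqt : qt (v x₁) (v x₂) = v x₂ / v x₁ := URA.qt_eq_div hb hlt.le
  rcases URA.roots_A1 H hlt hA h1 with ⟨h, h'⟩ | ⟨h, h'⟩
  · right
    rw [h, h', hs, ht, hcq, hcp, hfold, hqt]
    exact ⟨rfl, rfl⟩
  · left
    rw [h, h', hs, ht, hcq, hcp, hfold, hqt]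
    exact ⟨rfl, rfl⟩

theorem ur_A2 (H : URHyp2 v b₂ a₄ x₁ x₂ r₁ r₂) (hlt : v x₂ < v x₁) (hA : v a₄ < v x₁ * v x₂)
    (h1 : v x₁ = 1) : URConcl (v a₄) (v x₁) (v x₂) (v r₁) (v r₂) := by
  exact URA.concl_of_one_le H hlt hA h1.ge

theorem ur_A3 (H : URHyp2 v b₂ a₄ x₁ x₂ r₁ r₂) (hlt : v x₂ < v x₁) (hA : v a₄ < v x₁ * v x₂)
    (h1 : 1 < v x₁) : URConcl (v a₄) (v x₁) (v x₂) (v r₁) (v r₂) := by
  exact URA.concl_of_one_le H hlt hA h1.le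

end Fermat.Agent.S13.TwoAdic.XCore
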