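import Fermat.Agent.S13.TwoAdic.XCore.Basic
import Fermat.Agent.S13.TwoAdic.XCoreT.ur_B1
import Fermat.Agent.S13.TwoAdic.XCoreT.ur_B2
import Fermat.Agent.S13.TwoAdic.XCoreT.ur_B3

/-!
# S13 / TwoAdic / XCore: field-level unordered rule, case family B (`v x₁ * v x₂ < v a₄`, `v x₂ < v x₁`)
(one worker; statements frozen by helper16)

PORT of `Fermat/Agent/S05/Core/URB.lean` (READ-ONLY template: copy its lemmas under the same names
into this file's namespace and adapt).  Dictionary: `α β` ↦ `a₄ = α β` (so `v (α β) = v α` becomes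
just `v a₄`), `-4 (α + β)` ↦ `b₂` with `v b₂ = 1` (`H.hb₂`); `URHyp` ↦ `URHyp2`;
`S = (T1 + T2) / (x₁ - x₂)²` with `T1 = 2 (x₁x₂ + a₄)(x₁ + x₂)`, `T2 = b₂ x₁ x₂`,
`Π = (x₁x₂ - a₄)² / (x₁ - x₂)²`.
THE ONLY CHANGE: there is NO hypothesis `v 2 = 1`; only `v 2 ≤ 1` (`val_two_le`, `val_two_mul_le`
in Basic.lean).  So `v T2 = v x₁ * v x₂` exactly (`val_T2 H`), while for `T1` only the upper bound
`v T1 ≤ v (x₁x₂ + a₄) * v (x₁ + x₂)` (`val_T1_le`) is available.  In every case below either `T1` is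
strictly dominated by `T2` (then `v (T1 + T2) = v x₁ * v x₂` by `Valuation.map_add_eq_of_lt_left`),
or only an upper bound for `v S` is needed.  Then `newton_two_roots` (S05 Core/Newton.lean) and the
clip/fold/qt bookkeeping of the template apply verbatim.
Additive notation: `w = -log v`, `ω = w(2) ≥ 0`, `N = w(a₄) > 0`, `i = w(x₁)`, `j = w(x₂)`,
`w(T2) = i + j`, `w(T1) ≥ ω + min(i + j, N) + min(i, j)`.
Family B (`i < j`, `i + j > N`): `w(x₁ - x₂) = i`, `w(x₁x₂ - a₄) = N`, `w(Π) = 2N - 2i`,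
`w(T1) ≥ ω + N + i`.
* B1 (`j > N`, possibly `x₂ = 0`): `w(T2) = i + j > N + i`, so `w(S) ≥ N - i` (only this BOUND; the
  template has equality); `2 w(S) ≥ w(Π)` ⇒ both roots have `w = N - i`; clipped: both `N - s`.
* B2 (`j = N`): `w(T2) = N + i`, `w(S) ≥ N - i`, both roots have `w = N - i`.
* B3 (`j < N`, hence `0 < N - j < i < j < N`): `w(T2) = i + j < N + i ≤ w(T1)`, so `w(S) = j - i`
  exactly; roots `{j - i, 2N - i - j}`.
-/

set_option autoImplicit false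

namespace Fermat.Agent.S13.TwoAdic.XCore

open Fermat.Agent.S05 (fold qt clip URConcl newton_two_roots)

variable {K : Type*} [Field K] {Γ₀ : Type*} [LinearOrderedCommGroupWithZero Γ₀]
variable {v : Valuation K Γ₀} {b₂ a₄ x₁ x₂ r₁ r₂ : K}

theorem ur_B1 (H : URHyp2 v b₂ a₄ x₁ x₂ r₁ r₂) (hlt : v x₂ < v x₁) (hB : v x₁ * v x₂ < v a₄)
    (h1 : v x₂ < v a₄) : URConcl (v a₄) (v x₁) (v x₂) (v r₁) (v r₂) := by
  exact XCoreT.ur_B1 H hlt hB h1

theorem ur_B2 (H : URHyp2 v b₂ a₄ x₁ x₂ r₁ r₂) (hlt : v x₂ < v x₁) (hB : v x₁ * v x₂ < v a₄)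
    (h1 : v x₂ = v a₄) : URConcl (v a₄) (v x₁) (v x₂) (v r₁) (v r₂) := by
  exact XCoreT.ur_B2 H hlt hB h1

theorem ur_B3 (H : URHyp2 v b₂ a₄ x₁ x₂ r₁ r₂) (hlt : v x₂ < v x₁) (hB : v x₁ * v x₂ < v a₄)
    (h1 : v a₄ < v x₂) : URConcl (v a₄) (v x₁) (v x₂) (v r₁) (v r₂) := by
  exact XCoreT.ur_B3 H hlt hB h1

end Fermat.Agent.S13.TwoAdic.XCore
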