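import Fermat.Agent.S13.TwoAdic.XCore.Basic

/-!
# S13 / TwoAdic / XCore: field-level unordered rule, case family C (`v x₁ * v x₂ = v a₄`, `v x₂ < v x₁`)
(one worker; statements frozen by helper16)

PORT of `Fermat/Agent/S05/Core/URC.lean` (READ-ONLY template: copy its lemmas under the same names
into this file's namespace and adapt).  Dictionary: `α β` ↦ `a₄ = α β` (so `v (α β) = v α` becomes
just `v a₄`), `-4 (α + β)` ↦ `b₂` with `v b₂ = 1` (`H.hb₂`); `URHyp` ↦ `URHyp2`;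
`S = (T1 + T2) / (x₁ - x₂)²` with `T1 = 2 (x₁x₂ + a₄)(x₁ + x₂)`, `T2 = b₂ x₁ x₂`,
`Π = (x₁x₂ - a₄)² / (x₁ - x₂)²`.
THE ONLY CHANGE: there is NO hypothesis `v 2 = 1`; only `v 2 ≤ 1` (`val_two_le`, `val_two_mul_le`
in Basic.lean).  So `v T2 = v x₁ * v x₂` exactly (`val_T2 H`), while for `T1` only the upper bound
`v T1 ≤ v (x₁x₂ + a₄) * v (x₁ + x₂)` (`val_T1_le`) is available.  In every case below either `T1` is
strictly dominated by `T2` (then `v (T1 + T2) = v x₁ * v x₂` by `Valuation.map_add_eq_of_lt_left`),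
or only an upper bound for `v S` is needed.  Then `newton_two_roots` (S05 Core/Newton.lean) and the
clip/fold/qt bookkeeping of the template apply verbatim.
Additive notation: `w = -log v`, `ω = w(2) ≥ 0`, `N = w(a₄) > 0`, `i = w(x₁)`, `j = w(x₂)`,
`w(T2) = i + j`, `w(T1) ≥ ω + min(i + j, N) + min(i, j)`.
Family C (`i < j`, `i + j = N`): `w(x₁ - x₂) = i`, `w(x₁x₂ - a₄) ≥ N` (possibly `x₁x₂ = a₄`, then
`Π = 0` and one root is `0`), `w(Π) ≥ 2j`, `w(T2) = N`, `w(T1) ≥ ω + N + i`.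
* C1 (`i > 0`, hence `0 < i < N/2 < j < N`): `w(T1) > N = w(T2)`, so `w(S) = j - i` exactly; the roots
  have different valuations `j - i` and `≥ N`; clipped: `{j - i, N}`.
* C2 (`i ≤ 0`, hence `j ≥ N`, `s = 0`, `t = N`): `w(S) ≥ N + i - 2i = N - i ≥ N` (BOUND only) and
  `w(Π) ≥ 2N - 2i`, so both roots have `w ≥ N`; clipped: both `N`.
-/

set_option autoImplicit false

namespace Fermat.Agent.S13.TwoAdic.XCore

open Fermat.Agent.S05 (fold qt clip URConcl newton_two_roots)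

variable {K : Type*} [Field K] {Γ₀ : Type*} [LinearOrderedCommGroupWithZero Γ₀]
variable {v : Valuation K Γ₀} {b₂ a₄ x₁ x₂ r₁ r₂ : K}

namespace URC

/-! ### Valuation part -/

/-- `v (x₁ x₂ + a₄) ≤ v a₄` in family C. -/
theorem val_plus_le (hC : v x₁ * v x₂ = v a₄) : v (x₁ * x₂ + a₄) ≤ v a₄ := by
  refine Valuation.map_add_le v ?_ le_rfl
  rw [map_mul, hC]

/-- `v (x₁ x₂ - a₄) ≤ v a₄` in family C. -/
theorem val_minus_le (hC : v x₁ * v x₂ = v a₄) : v (x₁ * x₂ - a₄) ≤ v a₄ := by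
  refine Valuation.map_sub_le v ?_ le_rfl
  rw [map_mul, hC]

/-- `v (b₂ x₁ x₂) = v a₄` in family C. -/
theorem val_main (H : URHyp2 v b₂ a₄ x₁ x₂ r₁ r₂) (hC : v x₁ * v x₂ = v a₄) :
    v (b₂ * x₁ * x₂) = v a₄ := by
  rw [val_T2 H, hC]

/-- `v (2 (x₁ x₂ + a₄) (x₁ + x₂)) ≤ v a₄ * v x₁` in family C. -/
theorem val_T1_le_C (hlt : v x₂ < v x₁) (hC : v x₁ * v x₂ = v a₄) :
    v (2 * (x₁ * x₂ + a₄) * (x₁ + x₂)) ≤ v a₄ * v x₁ := by
  have hA : v (x₁ + x₂) = v x₁ := Valuation.map_add_eq_of_lt_left v hlt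
  refine (val_T1_le v a₄ x₁ x₂).trans ?_
  rw [hA]
  exact mul_le_mul' (val_plus_le hC) le_rfl

/-- `v (r₁ r₂) ≤ (v a₄)² / (v x₁)²` in family C. -/
theorem val_prod_le (H : URHyp2 v b₂ a₄ x₁ x₂ r₁ r₂) (hlt : v x₂ < v x₁)
    (hC : v x₁ * v x₂ = v a₄) : v (r₁ * r₂) ≤ v a₄ ^ 2 / v x₁ ^ 2 := by
  have hD : v (x₁ - x₂) = v x₁ := Valuation.map_sub_eq_of_lt_left v hlt
  have hB : v (x₁ * x₂ - a₄) ≤ v a₄ := val_minus_le hC
  rw [H.hprod, map_div₀, map_pow, map_pow, hD]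
  gcongr
  exact zero_le

/-- `v (r₁ + r₂) = v a₄ / (v x₁)²` in case C1. -/
theorem val_sum_C1 (H : URHyp2 v b₂ a₄ x₁ x₂ r₁ r₂) (hlt : v x₂ < v x₁)
    (hC : v x₁ * v x₂ = v a₄) (h1 : v x₁ < 1) : v (r₁ + r₂) = v a₄ / v x₁ ^ 2 := by
  have hD : v (x₁ - x₂) = v x₁ := Valuation.map_sub_eq_of_lt_left v hlt
  have hT : v (b₂ * x₁ * x₂) = v a₄ := val_main H hC
  have hU : v (2 * (x₁ * x₂ + a₄) * (x₁ + x₂)) < v (b₂ * x₁ * x₂) := by
    rw [hT]
    exact lt_of_le_of_lt (val_T1_le_C hlt hC) (mul_lt_of_lt_one_right (eps_pos H) h1)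
  have hnum : v (2 * (x₁ * x₂ + a₄) * (x₁ + x₂) + b₂ * x₁ * x₂) = v a₄ := by
    rw [Valuation.map_add_eq_of_lt_right v hU, hT]
  rw [H.hsum, map_div₀, map_pow, hnum, hD]

/-- `v (r₁ + r₂) ≤ v a₄ / v x₁` in case C2. -/
theorem val_sum_C2 (H : URHyp2 v b₂ a₄ x₁ x₂ r₁ r₂) (hlt : v x₂ < v x₁)
    (hC : v x₁ * v x₂ = v a₄) (h1 : 1 ≤ v x₁) : v (r₁ + r₂) ≤ v a₄ / v x₁ := by
  have hD : v (x₁ - x₂) = v x₁ := Valuation.map_sub_eq_of_lt_left v hlt
  have hT : v (b₂ * x₁ * x₂) = v a₄ := val_main H hC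
  have ha0 : v x₁ ≠ 0 := (lt_of_lt_of_le zero_lt_one h1).ne'
  have hU : v (2 * (x₁ * x₂ + a₄) * (x₁ + x₂)) ≤ v x₁ * v a₄ := by
    rw [mul_comm (v x₁) (v a₄)]
    exact val_T1_le_C hlt hC
  have hnum : v (2 * (x₁ * x₂ + a₄) * (x₁ + x₂) + b₂ * x₁ * x₂) ≤ v x₁ * v a₄ :=
    Valuation.map_add_le v hU (hT.le.trans (le_mul_of_one_le_left' h1))
  rw [H.hsum, map_div₀, map_pow, hD]
  calc v (2 * (x₁ * x₂ + a₄) * (x₁ + x₂) + b₂ * x₁ * x₂) / v x₁ ^ 2
      ≤ v x₁ * v a₄ / v x₁ ^ 2 := by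
        gcongr
        exact zero_le
    _ = v a₄ / v x₁ := by field_simp

/-! ### Order part -/

/-- Conclusion in case C1, from the valuations of the sum and the product. -/
theorem concl_C1 {a b ε s p x y : Γ₀} (hε : ε ≠ 0) (hab : a * b = ε) (hba : b < a)
    (ha1 : a < 1) (hs : s = ε / a ^ 2) (hp : p ≤ ε ^ 2 / a ^ 2)
    (hN : p < s ^ 2 → (x = s ∧ y * s = p) ∨ (y = s ∧ x * s = p)) :
    URConcl ε a b x y := by
  subst hab
  have ha0 : a ≠ 0 := left_ne_zero_of_mul hε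
  have hb0 : b ≠ 0 := right_ne_zero_of_mul hε
  have hapos : 0 < a := zero_lt_iff.mpr ha0
  have hbpos : 0 < b := zero_lt_iff.mpr hb0
  have hb1 : b < 1 := hba.trans ha1
  -- `s = b / a`
  have hs' : s = b / a := by rw [hs]; field_simp
  have hp' : p ≤ b ^ 2 := by
    have : (a * b) ^ 2 / a ^ 2 = b ^ 2 := by field_simp
    rwa [this] at hp
  have hspos : 0 < s := by rw [hs']; exact div_pos hbpos hapos
  -- the clipped values of `a`, `b`
  have hca : clip (a * b) a = a := by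
    unfold clip
    rw [min_eq_right ha1.le, max_eq_right (mul_le_of_le_one_right' hb1.le)]
  have hcb : clip (a * b) b = b := by
    unfold clip
    rw [min_eq_right hb1.le, max_eq_right (mul_le_of_le_one_left' ha1.le)]
  have hfold : fold (a * b) (a * b) = a * b := by
    unfold fold
    rw [if_pos le_rfl]
  have hqt : qt a b = b / a := by
    unfold qt
    exact min_eq_right (((div_le_one₀ hapos).mpr hba.le).trans ((one_le_div₀ hbpos).mpr hba.le))
  -- clipped value of `s`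
  have hcs : clip (a * b) s = b / a := by
    unfold clip
    rw [hs', min_eq_right ((div_le_one₀ hapos).mpr hba.le), max_eq_right]
    rw [le_div_iff₀ hapos]
    calc a * b * a ≤ 1 * b * 1 := by gcongr
      _ = b := by rw [one_mul, mul_one]
  -- `p < s ^ 2`
  have hps : p < s ^ 2 := by
    refine lt_of_le_of_lt hp' ?_
    rw [hs', div_pow, lt_div_iff₀ (pow_pos hapos 2)]
    exact mul_lt_of_lt_one_right (pow_pos hbpos 2) (pow_lt_one₀ zero_le ha1 two_ne_zero)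
  -- the small root
  have hsmall : ∀ z : Γ₀, z * s = p → clip (a * b) z = a * b := by
    intro z hz
    have hz' : z ≤ a * b := by
      have h1 : z * s ≤ a * b * s := by
        rw [hz]
        refine hp'.trans (le_of_eq ?_)
        rw [hs']
        field_simp
      exact le_of_mul_le_mul_right h1 hspos
    unfold clip
    exact max_eq_left ((min_le_right _ _).trans hz')
  unfold URConcl
  rw [hca, hcb, hfold, hqt]
  rcases hN hps with ⟨hx, hy⟩ | ⟨hy, hx⟩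
  · right
    exact ⟨by rw [hx, hcs], hsmall y hy⟩
  · left
    exact ⟨hsmall x hx, by rw [hy, hcs]⟩

/-- Conclusion in case C2, from bounds for the valuations of the sum and the product. -/
theorem concl_C2 {a b ε s p x y : Γ₀} (hε : ε ≠ 0) (hε1 : ε < 1) (hab : a * b = ε)
    (ha1 : 1 ≤ a) (hs : s ≤ ε / a) (hp : p ≤ ε ^ 2 / a ^ 2)
    (hN : (p < s ^ 2 → (x = s ∧ y * s = p) ∨ (y = s ∧ x * s = p)) ∧
      (s ^ 2 ≤ p → x = y ∧ x ^ 2 = p)) :
    URConcl ε a b x y := by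
  have hapos : 0 < a := lt_of_lt_of_le zero_lt_one ha1
  have hεpos : 0 < ε := zero_lt_iff.mpr hε
  have hb : b ≤ ε := by rw [← hab]; exact le_mul_of_one_le_left' ha1
  -- `ε / a ≤ ε`
  have hεa : ε / a ≤ ε := by
    rw [div_le_iff₀ hapos]
    exact le_mul_of_one_le_right' ha1
  have hs' : s ≤ ε := hs.trans hεa
  -- the clipped values of `a`, `b`
  have hca : clip ε a = 1 := by
    unfold clip
    rw [min_eq_left ha1, max_eq_right hε1.le]
  have hcb : clip ε b = ε := by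
    unfold clip
    exact max_eq_left ((min_le_right _ _).trans hb)
  have hfold : fold ε (1 * ε) = ε := by
    unfold fold
    rw [one_mul, if_pos le_rfl]
  have hqt : qt 1 ε = ε := by
    unfold qt
    rw [div_one]
    exact min_eq_right (hε1.le.trans ((one_le_div₀ hεpos).mpr hε1.le))
  have hclip : ∀ z : Γ₀, z ≤ ε → clip ε z = ε := by
    intro z hz
    unfold clip
    exact max_eq_left ((min_le_right _ _).trans hz)
  -- both roots are `≤ ε`
  have hxy : x ≤ ε ∧ y ≤ ε := by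
    rcases lt_or_ge p (s ^ 2) with hps | hps
    · have hlt : ∀ z : Γ₀, z * s = p → z ≤ ε := by
        intro z hz
        have h1 : z * s < s * s := by rw [hz, ← pow_two]; exact hps
        exact (lt_of_mul_lt_mul_right h1 zero_le).le.trans hs'
      rcases hN.1 hps with ⟨hx, hy⟩ | ⟨hy, hx⟩
      · exact ⟨hx.le.trans hs', hlt y hy⟩
      · exact ⟨hlt x hx, hy.le.trans hs'⟩
    · obtain ⟨hxy, hx2⟩ := hN.2 hps
      have hx : x ≤ ε := by
        have h2 : x ^ 2 ≤ (ε / a) ^ 2 := by rw [hx2, div_pow]; exact hp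
        exact ((pow_le_pow_iff_left₀ zero_le zero_le two_ne_zero).mp h2).trans hεa
      exact ⟨hx, hxy ▸ hx⟩
  unfold URConcl
  rw [hca, hcb, hfold, hqt]
  left
  exact ⟨hclip x hxy.1, hclip y hxy.2⟩

end URC

theorem ur_C1 (H : URHyp2 v b₂ a₄ x₁ x₂ r₁ r₂) (hlt : v x₂ < v x₁) (hC : v x₁ * v x₂ = v a₄)
    (h1 : v x₁ < 1) : URConcl (v a₄) (v x₁) (v x₂) (v r₁) (v r₂) := by
  exact URC.concl_C1 ((Valuation.ne_zero_iff v).mpr H.ha₄0) hC hlt h1
    (URC.val_sum_C1 H hlt hC h1) (URC.val_prod_le H hlt hC)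
    (newton_two_roots v rfl rfl).1

theorem ur_C2 (H : URHyp2 v b₂ a₄ x₁ x₂ r₁ r₂) (hlt : v x₂ < v x₁) (hC : v x₁ * v x₂ = v a₄)
    (h1 : 1 ≤ v x₁) : URConcl (v a₄) (v x₁) (v x₂) (v r₁) (v r₂) := by
  exact URC.concl_C2 ((Valuation.ne_zero_iff v).mpr H.ha₄0) H.ha₄ hC h1
    (URC.val_sum_C2 H hlt hC h1) (URC.val_prod_le H hlt hC)
    (newton_two_roots v rfl rfl)

end Fermat.Agent.S13.TwoAdic.XCore
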