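import Fermat.Agent.S13.TwoAdic.XCore.Basic
import Fermat.Agent.S13.TwoAdic.XCoreT.ur_D1
import Fermat.Agent.S13.TwoAdic.XCoreT.ur_D2
import Fermat.Agent.S13.TwoAdic.XCoreT.ur_D4

/-!
# S13 / TwoAdic / XCore: field-level unordered rule, case family D, outer part (`v x₁ = v x₂`; `1 ≤ v x₁` or `v x₁ ≤ v a₄`)
(one worker; statements frozen by helper16)

PORT of `Fermat/Agent/S05/Core/URD.lean` (READ-ONLY template: copy its lemmas under the same names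
into this file's namespace and adapt).  Dictionary: `α β` ↦ `a₄ = α β` (so `v (α β) = v α` becomes
just `v a₄`), `-4 (α + β)` ↦ `b₂` with `v b₂ = 1` (`H.hb₂`); `URHyp` ↦ `URHyp2`;
`S = (T1 + T2) / (x₁ - x₂)²` with `T1 = 2 (x₁x₂ + a₄)(x₁ + x₂)`, `T2 = b₂ x₁ x₂`,
`Π = (x₁x₂ - a₄)² / (x₁ - x₂)²`.
THE ONLY CHANGE: there is NO hypothesis `v 2 = 1`; only `v 2 ≤ 1` (`val_two_le`, `val_two_mul_le`
in Basic.lean).  So `v T2 = v x₁ * v x₂` exactly (`val_T2 H`), while for `T1` only the upper bound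
`v T1 ≤ v (x₁x₂ + a₄) * v (x₁ + x₂)` (`val_T1_le`) is available.  In every case below either `T1` is
strictly dominated by `T2` (then `v (T1 + T2) = v x₁ * v x₂` by `Valuation.map_add_eq_of_lt_left`),
or only an upper bound for `v S` is needed.  Then `newton_two_roots` (S05 Core/Newton.lean) and the
clip/fold/qt bookkeeping of the template apply verbatim.
Additive notation: `w = -log v`, `ω = w(2) ≥ 0`, `N = w(a₄) > 0`, `i = w(x₁)`, `j = w(x₂)`,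
`w(T2) = i + j`, `w(T1) ≥ ω + min(i + j, N) + min(i, j)`.
Family D (`i = j`), `d = w(x₁ - x₂) ≥ i`.  In all three cases both roots have `w ≤ 0`, i.e.
`1 ≤ v r₁` and `1 ≤ v r₂`, and `s = t`, so `qt s t = 1` and `fold ε (s * t) = 1`.
Key argument (template `URD.one_le_left` / `one_le_both`): if `w(r₂) > 0` then `w(r₁) = w(Π) - w(r₂) <
w(Π) ≤ 0 < w(r₂)`, so `w(S) = w(r₁) < w(Π)`; contradiction with the lower bound for `w(S)`:
* D1 (`i < 0`): `w(Π) = 4i - 2d`, `w(T1) ≥ 3i`, `w(T2) = 2i`, so `w(S) ≥ 3i - 2d > 4i - 2d`.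
* D2 (`i = 0`): `w(Π) = -2d`, `w(T1) ≥ 0`, `w(T2) = 0`, so `w(S) ≥ -2d`.
* D4 (`i ≥ N`): `w(x₁x₂ - a₄) = N` (if `x₁x₂ ≠ 0`; also fine if one of them is `0`), `w(Π) = 2N - 2d`,
  `w(T1) ≥ N + i`, `w(T2) = 2i ≥ N + i`, so `w(S) ≥ N + i - 2d ≥ 2N - 2d`.
-/

set_option autoImplicit false

namespace Fermat.Agent.S13.TwoAdic.XCore

open Fermat.Agent.S05 (fold qt clip URConcl newton_two_roots)

variable {K : Type*} [Field K] {Γ₀ : Type*} [LinearOrderedCommGroupWithZero Γ₀]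
variable {v : Valuation K Γ₀} {b₂ a₄ x₁ x₂ r₁ r₂ : K}

theorem ur_D1 (H : URHyp2 v b₂ a₄ x₁ x₂ r₁ r₂) (heq : v x₁ = v x₂) (h1 : 1 < v x₁) :
    URConcl (v a₄) (v x₁) (v x₂) (v r₁) (v r₂) := by
  exact XCoreT.ur_D1 H heq h1

theorem ur_D2 (H : URHyp2 v b₂ a₄ x₁ x₂ r₁ r₂) (heq : v x₁ = v x₂) (h1 : v x₁ = 1) :
    URConcl (v a₄) (v x₁) (v x₂) (v r₁) (v r₂) := by
  exact XCoreT.ur_D2 H heq h1

theorem ur_D4 (H : URHyp2 v b₂ a₄ x₁ x₂ r₁ r₂) (heq : v x₁ = v x₂) (h1 : v x₁ ≤ v a₄) :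
    URConcl (v a₄) (v x₁) (v x₂) (v r₁) (v r₂) := by
  exact XCoreT.ur_D4 H heq h1

end Fermat.Agent.S13.TwoAdic.XCore
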