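import Fermat.Agent.S13.TwoAdic.XCore.Basic

/-!
# S13 / TwoAdic / XCore: field-level unordered rule, case family D3 (`v x₁ = v x₂`, `v a₄ < v x₁ < 1`)
(one worker; statements frozen by helper16)

PORT of `Fermat/Agent/S05/Core/URD3.lean` (READ-ONLY template: copy its lemmas under the same names
into this file's namespace and adapt).  Dictionary: `α β` ↦ `a₄ = α β` (so `v (α β) = v α` becomes
just `v a₄`), `-4 (α + β)` ↦ `b₂` with `v b₂ = 1` (`H.hb₂`); `URHyp` ↦ `URHyp2`;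
`S = (T1 + T2) / (x₁ - x₂)²` with `T1 = 2 (x₁x₂ + a₄)(x₁ + x₂)`, `T2 = b₂ x₁ x₂`,
`Π = (x₁x₂ - a₄)² / (x₁ - x₂)²`.
THE ONLY CHANGE: there is NO hypothesis `v 2 = 1`; only `v 2 ≤ 1` (`val_two_le`, `val_two_mul_le`
in Basic.lean).  So `v T2 = v x₁ * v x₂` exactly (`val_T2 H`), while for `T1` only the upper bound
`v T1 ≤ v (x₁x₂ + a₄) * v (x₁ + x₂)` (`val_T1_le`) is available.  In every case below either `T1` is
strictly dominated by `T2` (then `v (T1 + T2) = v x₁ * v x₂` by `Valuation.map_add_eq_of_lt_left`),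
or only an upper bound for `v S` is needed.  Then `newton_two_roots` (S05 Core/Newton.lean) and the
clip/fold/qt bookkeeping of the template apply verbatim.
Additive notation: `w = -log v`, `ω = w(2) ≥ 0`, `N = w(a₄) > 0`, `i = w(x₁)`, `j = w(x₂)`,
`w(T2) = i + j`, `w(T1) ≥ ω + min(i + j, N) + min(i, j)`.
Family D3 (`i = j`, `0 < i < N`), `d = w(x₁ - x₂) ≥ i > 0`: `w(T2) = 2i` and
`w(T1) ≥ ω + min(2i, N) + i > 2i`, so the numerator of `S` has `w = 2i` exactly and `w(S) = 2i - 2d ≤ 0`.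
* D3a (`2i < N`): `w(Π) = 4i - 2d`; roots have different valuations `2i - 2d ≤ 0` and `2i`.
* D3b (`2i > N`): `w(Π) = 2N - 2d`; roots: `2i - 2d ≤ 0` and `2N - 2i`.
* D3c (`2i = N`): `w(Π) ≥ 2N - 2d` (possibly `Π = 0`); roots: `2i - 2d ≤ 0` and `≥ N`.
Clipped: `{0, fold(2i)}`; and `qt s s = 1` (level `0`).
-/

set_option autoImplicit false

namespace Fermat.Agent.S13.TwoAdic.XCore

open Fermat.Agent.S05 (fold qt clip URConcl newton_two_roots)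

variable {K : Type*} [Field K] {Γ₀ : Type*} [LinearOrderedCommGroupWithZero Γ₀]
variable {v : Valuation K Γ₀} {b₂ a₄ x₁ x₂ r₁ r₂ : K}

namespace URD3

/-! ### Order lemmas in `Γ₀` -/

theorem sq_lt_self {a : Γ₀} (h0 : 0 < a) (h1 : a < 1) : a ^ 2 < a := by
  rw [pow_two]
  exact mul_lt_of_lt_one_right h0 h1

theorem sq_lt_one {a : Γ₀} (h0 : 0 < a) (h1 : a < 1) : a ^ 2 < 1 :=
  lt_trans (sq_lt_self h0 h1) h1

/-- `clip ε x = 1` if `1 ≤ x` (and `ε ≤ 1`). -/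
theorem clip_of_one_le {ε x : Γ₀} (hε : ε ≤ 1) (hx : 1 ≤ x) : clip ε x = 1 := by
  unfold clip
  rw [min_eq_left hx, max_eq_right hε]

/-- `clip ε x = x` if `ε ≤ x ≤ 1`. -/
theorem clip_of_mem {ε x : Γ₀} (hε : ε ≤ x) (hx : x ≤ 1) : clip ε x = x := by
  unfold clip
  rw [min_eq_right hx, max_eq_right hε]

/-- `clip ε x = ε` if `x ≤ ε` (and `ε ≤ 1`). -/
theorem clip_of_le {ε x : Γ₀} (hε : ε ≤ 1) (hx : x ≤ ε) : clip ε x = ε := by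
  unfold clip
  rw [min_eq_right (le_trans hx hε), max_eq_left hx]

theorem qt_self {a : Γ₀} (ha : a ≠ 0) : qt a a = 1 := by
  unfold qt
  rw [min_self, div_self ha]

/-- The final assembly: one root is a unit or non-integral (clipped level `1 = qt a a`), the
other one has clipped level `fold ε (a * a)`. -/
theorem concl_of {ε a c₁ c₂ : Γ₀} (hεa : ε < a) (ha1 : a < 1)
    (h : (1 ≤ c₁ ∧ clip ε c₂ = fold ε (a * a)) ∨ (1 ≤ c₂ ∧ clip ε c₁ = fold ε (a * a))) :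
    URConcl ε a a c₁ c₂ := by
  have ha0 : a ≠ 0 := (lt_of_le_of_lt zero_le hεa).ne'
  have hε1 : ε ≤ 1 := (lt_trans hεa ha1).le
  have hca : clip ε a = a := clip_of_mem hεa.le ha1.le
  unfold URConcl
  rw [hca, qt_self ha0]
  rcases h with ⟨h1, h2⟩ | ⟨h1, h2⟩
  · exact Or.inr ⟨clip_of_one_le hε1 h1, h2⟩
  · exact Or.inl ⟨h2, clip_of_one_le hε1 h1⟩

/-! ### Valuations of the ingredients -/

theorem vX₁_pos (hε : v a₄ < v x₁) : 0 < v x₁ := lt_of_le_of_lt zero_le hε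

theorem vsub_pos (H : URHyp2 v b₂ a₄ x₁ x₂ r₁ r₂) : 0 < v (x₁ - x₂) :=
  v.pos_iff.2 (sub_ne_zero.2 H.hne)

theorem vsub_le (heq : v x₁ = v x₂) : v (x₁ - x₂) ≤ v x₁ :=
  v.map_sub_le le_rfl heq.ge

theorem v_XX (heq : v x₁ = v x₂) : v (x₁ * x₂) = v x₁ ^ 2 := by
  rw [map_mul, ← heq, pow_two]

/-- The dominant term `T2 = b₂ x₁ x₂` of the numerator of `S`. -/
theorem v_dom (H : URHyp2 v b₂ a₄ x₁ x₂ r₁ r₂) (heq : v x₁ = v x₂) :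
    v (b₂ * x₁ * x₂) = v x₁ ^ 2 := by
  rw [val_T2 H, ← heq, pow_two]

/-- The other term `T1 = 2 (x₁ x₂ + a₄) (x₁ + x₂)` of the numerator of `S` is strictly smaller. -/
theorem v_small (heq : v x₁ = v x₂) (h1 : v x₁ < 1)
    (hε : v a₄ < v x₁) : v (2 * (x₁ * x₂ + a₄) * (x₁ + x₂)) < v x₁ ^ 2 := by
  have h0 : 0 < v x₁ := vX₁_pos hε
  have hA : v (x₁ + x₂) ≤ v x₁ := v.map_add_le le_rfl heq.ge
  have hB : v (x₁ * x₂ + a₄) < v x₁ := by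
    refine v.map_add_lt ?_ hε
    rw [v_XX heq]
    exact sq_lt_self h0 h1
  refine lt_of_le_of_lt (val_T1_le v a₄ x₁ x₂) ?_
  rw [pow_two]
  exact lt_of_le_of_lt (mul_le_mul' le_rfl hA) (mul_lt_mul_of_pos_right hB h0)

/-- The numerator of `S` has valuation exactly `(v x₁)²`. -/
theorem v_num (H : URHyp2 v b₂ a₄ x₁ x₂ r₁ r₂) (heq : v x₁ = v x₂) (h1 : v x₁ < 1)
    (hε : v a₄ < v x₁) :
    v (2 * (x₁ * x₂ + a₄) * (x₁ + x₂) + b₂ * x₁ * x₂) = v x₁ ^ 2 := by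
  rw [Valuation.map_add_eq_of_lt_right v (by rw [v_dom H heq]; exact v_small heq h1 hε),
    v_dom H heq]

/-- `v S = (v x₁)² / (v (x₁ - x₂))²`. -/
theorem v_sum (H : URHyp2 v b₂ a₄ x₁ x₂ r₁ r₂) (heq : v x₁ = v x₂) (h1 : v x₁ < 1)
    (hε : v a₄ < v x₁) :
    v ((2 * (x₁ * x₂ + a₄) * (x₁ + x₂) + b₂ * x₁ * x₂) / (x₁ - x₂) ^ 2) =
      v x₁ ^ 2 / v (x₁ - x₂) ^ 2 := by
  rw [map_div₀, v_num H heq h1 hε, map_pow]

/-- `v Π = (v (x₁ x₂ - a₄))² / (v (x₁ - x₂))²`. -/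
theorem v_prod : v ((x₁ * x₂ - a₄) ^ 2 / (x₁ - x₂) ^ 2) =
    v (x₁ * x₂ - a₄) ^ 2 / v (x₁ - x₂) ^ 2 := by
  rw [map_div₀, map_pow, map_pow]

/-- `v (x₁ x₂ - a₄) < v x₁`. -/
theorem v_tau_lt (heq : v x₁ = v x₂) (h1 : v x₁ < 1)
    (hε : v a₄ < v x₁) : v (x₁ * x₂ - a₄) < v x₁ := by
  refine v.map_sub_lt ?_ hε
  rw [v_XX heq]
  exact sq_lt_self (vX₁_pos hε) h1

/-- `1 ≤ v S`. -/
theorem one_le_v_sum (H : URHyp2 v b₂ a₄ x₁ x₂ r₁ r₂) (heq : v x₁ = v x₂) :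
    1 ≤ v x₁ ^ 2 / v (x₁ - x₂) ^ 2 := by
  rw [one_le_div₀ (pow_pos (vsub_pos H) 2)]
  exact pow_le_pow_left₀ zero_le (vsub_le heq) 2

/-- The Newton polygon: one root has `1 ≤ v r`, the other one satisfies
`v r * (v x₁)² = (v (x₁ x₂ - a₄))²`. -/
theorem roots (H : URHyp2 v b₂ a₄ x₁ x₂ r₁ r₂) (heq : v x₁ = v x₂) (h1 : v x₁ < 1)
    (hε : v a₄ < v x₁) :
    (1 ≤ v r₁ ∧ v r₂ * v x₁ ^ 2 = v (x₁ * x₂ - a₄) ^ 2) ∨
      (1 ≤ v r₂ ∧ v r₁ * v x₁ ^ 2 = v (x₁ * x₂ - a₄) ^ 2) := by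
  have hd0 : 0 < v (x₁ - x₂) ^ 2 := pow_pos (vsub_pos H) 2
  have hS1 : 1 ≤ v x₁ ^ 2 / v (x₁ - x₂) ^ 2 := one_le_v_sum H heq
  have hlt : v ((x₁ * x₂ - a₄) ^ 2 / (x₁ - x₂) ^ 2) <
      v ((2 * (x₁ * x₂ + a₄) * (x₁ + x₂) + b₂ * x₁ * x₂) / (x₁ - x₂) ^ 2) ^ 2 := by
    rw [v_prod, v_sum H heq h1 hε]
    refine lt_of_lt_of_le ?_ (le_self_pow₀ hS1 two_ne_zero)
    exact (div_lt_div_iff_of_pos_right hd0).mpr
      (pow_lt_pow_left₀ (v_tau_lt heq h1 hε) zero_le two_ne_zero)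
  have key : ∀ x : Γ₀, x * (v x₁ ^ 2 / v (x₁ - x₂) ^ 2) =
      v (x₁ * x₂ - a₄) ^ 2 / v (x₁ - x₂) ^ 2 → x * v x₁ ^ 2 = v (x₁ * x₂ - a₄) ^ 2 := by
    intro x hx
    rw [← mul_div_assoc] at hx
    exact (div_left_inj' hd0.ne').mp hx
  rcases (newton_two_roots v H.hsum H.hprod).1 hlt with ⟨h1', h2'⟩ | ⟨h1', h2'⟩
  · rw [v_sum H heq h1 hε] at h1' h2'
    rw [v_prod] at h2'
    exact Or.inl ⟨h1'.symm ▸ hS1, key _ h2'⟩
  · rw [v_sum H heq h1 hε] at h1' h2'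
    rw [v_prod] at h2'
    exact Or.inr ⟨h1'.symm ▸ hS1, key _ h2'⟩

/-- Reduction of the three cases to a statement on the small root. -/
theorem concl (H : URHyp2 v b₂ a₄ x₁ x₂ r₁ r₂) (heq : v x₁ = v x₂) (h1 : v x₁ < 1)
    (hε : v a₄ < v x₁)
    (hx : ∀ x : Γ₀, x * v x₁ ^ 2 = v (x₁ * x₂ - a₄) ^ 2 →
      clip (v a₄) x = fold (v a₄) (v x₁ * v x₁)) :
    URConcl (v a₄) (v x₁) (v x₂) (v r₁) (v r₂) := by
  rw [← heq]
  refine concl_of hε h1 ?_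
  rcases roots H heq h1 hε with ⟨h, h'⟩ | ⟨h, h'⟩
  · exact Or.inl ⟨h, hx _ h'⟩
  · exact Or.inr ⟨h, hx _ h'⟩

end URD3

open URD3

theorem ur_D3a (H : URHyp2 v b₂ a₄ x₁ x₂ r₁ r₂) (heq : v x₁ = v x₂) (h1 : v x₁ < 1)
    (hε : v a₄ < v x₁) (h3 : v a₄ < v x₁ ^ 2) : URConcl (v a₄) (v x₁) (v x₂) (v r₁) (v r₂) := by
  have h0 : 0 < v x₁ := vX₁_pos hε
  have hτ : v (x₁ * x₂ - a₄) = v x₁ ^ 2 := by
    rw [Valuation.map_sub_eq_of_lt_left v (by rw [v_XX heq]; exact h3), v_XX heq]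
  refine concl H heq h1 hε fun x hx => ?_
  rw [hτ, pow_two (v x₁ ^ 2)] at hx
  have hx' : x = v x₁ ^ 2 := mul_right_cancel₀ (pow_pos h0 2).ne' hx
  rw [hx', ← pow_two, fold, if_pos h3.le]
  exact clip_of_mem h3.le (sq_lt_one h0 h1).le

theorem ur_D3b (H : URHyp2 v b₂ a₄ x₁ x₂ r₁ r₂) (heq : v x₁ = v x₂) (h1 : v x₁ < 1)
    (hε : v a₄ < v x₁) (h3 : v x₁ ^ 2 < v a₄) : URConcl (v a₄) (v x₁) (v x₂) (v r₁) (v r₂) := by
  have h0 : 0 < v x₁ := vX₁_pos hε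
  have h20 : 0 < v x₁ ^ 2 := pow_pos h0 2
  have hτ : v (x₁ * x₂ - a₄) = v a₄ := by
    rw [Valuation.map_sub_eq_of_lt_right v (by rw [v_XX heq]; exact h3)]
  refine concl H heq h1 hε fun x hx => ?_
  rw [hτ] at hx
  have hx' : x = v a₄ ^ 2 / v x₁ ^ 2 := (eq_div_iff h20.ne').mpr hx
  rw [hx', ← pow_two, fold, if_neg (not_le.mpr h3)]
  refine clip_of_mem ?_ ?_
  · rw [le_div_iff₀ h20, pow_two (v a₄)]
    exact mul_le_mul' le_rfl h3.le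
  · rw [div_le_one₀ h20]
    exact pow_le_pow_left₀ zero_le hε.le 2

theorem ur_D3c (H : URHyp2 v b₂ a₄ x₁ x₂ r₁ r₂) (heq : v x₁ = v x₂) (h1 : v x₁ < 1)
    (hε : v a₄ < v x₁) (h3 : v x₁ ^ 2 = v a₄) : URConcl (v a₄) (v x₁) (v x₂) (v r₁) (v r₂) := by
  have h0 : 0 < v x₁ := vX₁_pos hε
  have h20 : 0 < v x₁ ^ 2 := pow_pos h0 2
  have hτ : v (x₁ * x₂ - a₄) ≤ v a₄ := by
    refine v.map_sub_le ?_ le_rfl
    rw [v_XX heq, h3]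
  refine concl H heq h1 hε fun x hx => ?_
  have hxle : x ≤ v a₄ := by
    refine le_of_mul_le_mul_right ?_ h20
    rw [hx]
    rw [h3, ← pow_two]
    exact pow_le_pow_left₀ zero_le hτ 2
  rw [← pow_two, fold, if_pos h3.ge, h3]
  exact clip_of_le H.ha₄.le hxle

end Fermat.Agent.S13.TwoAdic.XCore
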