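import Fermat.Agent.S13.TwoAdic.XCore.URA
import Fermat.Agent.S13.TwoAdic.XCore.URB
import Fermat.Agent.S13.TwoAdic.XCore.URC
import Fermat.Agent.S13.TwoAdic.XCore.URD
import Fermat.Agent.S13.TwoAdic.XCore.URD3
import Fermat.Agent.S13.TwoAdic.XCore.Dbl
import Fermat.Agent.S05.Core.URAll
import Fermat.Agent.S05.Core.Iter

/-!
# S13 / TwoAdic / XCore: the unordered parallelogram rule (assembly; helper16)

Port of `Fermat/Agent/S05/Core/URAll.lean`.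
-/

set_option autoImplicit false

namespace Fermat.Agent.S13.TwoAdic.XCore

open Fermat.Agent.S05 (fold qt clip URConcl iter)
open Fermat.Agent.S05.URAll (qt_comm qt_self qt_one_right qt_one_left fold_of_le fold_one_mul_one
  fold_self_mul_self urConcl_swap)

variable {K : Type*} [Field K] {Γ₀ : Type*} [LinearOrderedCommGroupWithZero Γ₀]

/-! ### The case distinction for `ur_field2` -/

theorem ur_field2_lt {v : Valuation K Γ₀} {b₂ a₄ x₁ x₂ r₁ r₂ : K}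
    (H : URHyp2 v b₂ a₄ x₁ x₂ r₁ r₂) (hlt : v x₂ < v x₁) :
    URConcl (v a₄) (v x₁) (v x₂) (v r₁) (v r₂) := by
  rcases lt_trichotomy (v a₄) (v x₁ * v x₂) with hA | hC | hB
  · rcases lt_trichotomy (v x₁) 1 with h1 | h1 | h1
    · exact ur_A1 H hlt hA h1
    · exact ur_A2 H hlt hA h1
    · exact ur_A3 H hlt hA h1
  · rcases lt_or_ge (v x₁) 1 with h1 | h1
    · exact ur_C1 H hlt hC.symm h1
    · exact ur_C2 H hlt hC.symm h1
  · rcases lt_trichotomy (v x₂) (v a₄) with h1 | h1 | h1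
    · exact ur_B1 H hlt hB h1
    · exact ur_B2 H hlt hB h1
    · exact ur_B3 H hlt hB h1

theorem ur_field2_eq {v : Valuation K Γ₀} {b₂ a₄ x₁ x₂ r₁ r₂ : K}
    (H : URHyp2 v b₂ a₄ x₁ x₂ r₁ r₂) (heq : v x₁ = v x₂) :
    URConcl (v a₄) (v x₁) (v x₂) (v r₁) (v r₂) := by
  rcases lt_trichotomy (v x₁) 1 with h1 | h1 | h1
  · rcases le_or_gt (v x₁) (v a₄) with h4 | hε
    · exact ur_D4 H heq h4
    · rcases lt_trichotomy (v a₄) (v x₁ ^ 2) with h3 | h3 | h3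
      · exact ur_D3a H heq h1 hε h3
      · exact ur_D3c H heq h1 hε h3.symm
      · exact ur_D3b H heq h1 hε h3
  · exact ur_D2 H heq h1
  · exact ur_D1 H heq h1

/-- Field-level unordered rule. -/
theorem ur_field2 {v : Valuation K Γ₀} {b₂ a₄ x₁ x₂ r₁ r₂ : K}
    (H : URHyp2 v b₂ a₄ x₁ x₂ r₁ r₂) : URConcl (v a₄) (v x₁) (v x₂) (v r₁) (v r₂) := by
  rcases lt_trichotomy (v x₂) (v x₁) with hlt | heq | hgt
  · exact ur_field2_lt H hlt
  · exact ur_field2_eq H heq.symm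
  · exact urConcl_swap (ur_field2_lt (urHyp2_swap H) hgt)

/-! ### Basic facts on the level function -/

section Level

variable {b₂ a₄ : K} {G : Type*} [AddCommGroup G] (M : XModel K b₂ a₄ G) (v : Valuation K Γ₀)

theorem lvl_neg (P : G) : M.lvl v (-P) = M.lvl v P := by
  unfold XModel.lvl
  rw [M.xc_neg]

theorem le_lvl (ha₄ : v a₄ < 1) (P : G) : v a₄ ≤ M.lvl v P := by
  by_cases h : P = 0
  · rw [h, M.lvl_zero]
    exact ha₄.le
  · obtain ⟨x, hc⟩ := M.exists_xc_of_ne_zero h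
    rw [M.lvl_of_xc v hc]
    exact le_max_left _ _

theorem lvl_le_one (ha₄ : v a₄ < 1) (P : G) : M.lvl v P ≤ 1 := by
  by_cases h : P = 0
  · rw [h, M.lvl_zero]
  · obtain ⟨x, hc⟩ := M.exists_xc_of_ne_zero h
    rw [M.lvl_of_xc v hc]
    exact max_le ha₄.le (min_le_left _ _)

theorem lvl_ne_zero (ha₄0 : a₄ ≠ 0) (ha₄ : v a₄ < 1) (P : G) : M.lvl v P ≠ 0 := by
  have h0 : 0 < v a₄ := zero_lt_iff.mpr (v.ne_zero_iff.mpr ha₄0)
  exact (lt_of_lt_of_le h0 (le_lvl M v ha₄ P)).ne'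

/-- The duplication rule for the level function. -/
theorem lvl_two (hb₂ : v b₂ = 1) (ha₄0 : a₄ ≠ 0) (ha₄ : v a₄ < 1) (P : G) :
    M.lvl v (P + P) = fold (v a₄) (M.lvl v P * M.lvl v P) := by
  by_cases hP : P = 0
  · rw [hP, add_zero, M.lvl_zero]
    exact (fold_one_mul_one ha₄.le).symm
  obtain ⟨x, hc⟩ := M.exists_xc_of_ne_zero hP
  obtain ⟨h0, hne⟩ := M.two hc
  by_cases hD : 4 * x ^ 3 + b₂ * x ^ 2 + 4 * a₄ * x = 0
  · rw [h0 hD, M.lvl_zero, M.lvl_of_xc v hc]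
    have hcl : max (v a₄) (min 1 (v x)) = clip (v a₄) (v x) := rfl
    rw [hcl]
    rcases clip_of_den_eq_zero v hb₂ ha₄ hD with h | h
    · rw [h]
      exact (fold_self_mul_self (v.ne_zero_iff.mpr ha₄0) ha₄).symm
    · rw [h]
      exact (fold_one_mul_one ha₄.le).symm
  · rw [M.lvl_of_xc v (hne hD), M.lvl_of_xc v hc]
    exact dbl_field2 v hb₂ ha₄0 ha₄ hD

end Level

section Model

variable {b₂ a₄ : K} {G : Type*} [AddCommGroup G] (M : XModel K b₂ a₄ G) (v : Valuation K Γ₀)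

/-- The unordered parallelogram rule for the level function (multiplicative case). -/
theorem ur (hb₂ : v b₂ = 1) (ha₄0 : a₄ ≠ 0) (ha₄ : v a₄ < 1) (P Q : G) :
    (M.lvl v (P + Q) = fold (v a₄) (M.lvl v P * M.lvl v Q) ∧
        M.lvl v (P - Q) = qt (M.lvl v P) (M.lvl v Q)) ∨
      (M.lvl v (P + Q) = qt (M.lvl v P) (M.lvl v Q) ∧
        M.lvl v (P - Q) = fold (v a₄) (M.lvl v P * M.lvl v Q)) := by
  by_cases hP : P = 0
  · left
    rw [hP, zero_add, zero_sub, lvl_neg, M.lvl_zero, one_mul,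
      fold_of_le (le_lvl M v ha₄ Q),
      qt_one_left (lvl_ne_zero M v ha₄0 ha₄ Q) (lvl_le_one M v ha₄ Q)]
    exact ⟨rfl, rfl⟩
  by_cases hQ : Q = 0
  · left
    rw [hQ, add_zero, sub_zero, M.lvl_zero, mul_one,
      fold_of_le (le_lvl M v ha₄ P),
      qt_one_right (lvl_ne_zero M v ha₄0 ha₄ P) (lvl_le_one M v ha₄ P)]
    exact ⟨rfl, rfl⟩
  obtain ⟨x₁, hc₁⟩ := M.exists_xc_of_ne_zero hP
  obtain ⟨x₂, hc₂⟩ := M.exists_xc_of_ne_zero hQ
  by_cases hne : x₁ = x₂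
  · rw [← hne] at hc₂
    rcases M.eq_or_eq_neg hc₁ hc₂ with h | h
    · left
      rw [h, sub_self, M.lvl_zero, qt_self (lvl_ne_zero M v ha₄0 ha₄ P)]
      exact ⟨lvl_two M v hb₂ ha₄0 ha₄ P, rfl⟩
    · right
      rw [h, add_neg_cancel, sub_neg_eq_add, lvl_neg, M.lvl_zero,
        qt_self (lvl_ne_zero M v ha₄0 ha₄ P)]
      exact ⟨rfl, lvl_two M v hb₂ ha₄0 ha₄ P⟩
  · obtain ⟨rp, rm, hp, hm, hsum, hprod⟩ := M.add_sub hc₁ hc₂ hne
    have H : URHyp2 v b₂ a₄ x₁ x₂ rp rm := ⟨hb₂, ha₄0, ha₄, hne, hsum, hprod⟩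
    have hur := ur_field2 H
    rw [M.lvl_of_xc v hp, M.lvl_of_xc v hm, M.lvl_of_xc v hc₁, M.lvl_of_xc v hc₂]
    exact hur

/-- Levels of torsion points (from `ur` and `Fermat.Agent.S05.iter`). -/
theorem lvl_pow_of_torsion (hb₂ : v b₂ = 1) (ha₄0 : a₄ ≠ 0) (ha₄ : v a₄ < 1) (P : G) (n : ℕ)
    (hn : n • P = 0) : ∃ k : ℤ, M.lvl v P ^ n = v a₄ ^ (2 * k) :=
  iter (v a₄) (zero_lt_iff.mpr (v.ne_zero_iff.mpr ha₄0)) ha₄ (M.lvl v) (M.lvl_zero v)
    (fun R => ⟨le_lvl M v ha₄ R, lvl_le_one M v ha₄ R⟩) (ur M v hb₂ ha₄0 ha₄) P n hn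

end Model

end Fermat.Agent.S13.TwoAdic.XCore
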